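import Fermat.Agent.CFT.T.Defs
import Fermat.Agent.CFT.T.Codim.Formal
import Fermat.Agent.CFT.T.Codim.NF
import Fermat.Agent.CFT.Global.Lift.Main
import Fermat.Agent.CFT.Global.GC.Basic
import Fermat.Agent.CFT.LS.BrP
import Fermat.Agent.CFT.LS.Inst
import Fermat.Agent.CFT.Br.Adapter

/-!
# CFT / T, WP TG4 = (I1) : the image of `H^2(G_S(L),F_p) → ∏_{w ∣ S} H^2(L_w,F_p)` has codimension `≤ 1`.

(GLOBAL, = helper85's GC4.)  `χ₁` = Kummer character of `η` (`NiceLevel.kum`), nontrivial on every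
`locG W (A i)`.  LOCAL (l3): every class of `H^2(L_w,μ_p)` is cyclic `(χ₁, a_w)`, `a_w ∈ L^×` (density),
trivial iff `a_w` is a local norm.  GN4c `second_ineq` for `L(η)/L`: modulo one element `a₀` every family
`(a_w)` is represented by a global `u` with `p ∣ ord_v u` at the non-split `v ∤ S`.
GC4-lift: for such `u` the class `(χ₁,u)` lifts to an `S`-level `μ_p`-valued cocycle.

Assembly: `Codim/Formal.lean` (formal part), `Codim/NF.lean` (approximation + second inequality in `Qb`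
language), `LS/BrP.lean` (`exists_cyc_of_p_torsion`), `LS/Inst.lean`, `Global/Lift/Main.lean`
(`exists_lift_cyc`).
-/

set_option autoImplicit false

open ExtCitation

namespace Fermat.Agent.CFT.Codim

open Fermat.Agent.CFT Fermat.Agent.CFT.Br Fermat.Agent.CFT.Global Fermat.Agent.Bridge

variable {p : ℕ} [Fact p.Prime]

/-- (a) LOCAL: every class of `H^2(L_w, μ_p)` is cyclic `(ψ, y)`, for any nontrivial `ψ` -/
theorem loc_cyc {A : ValuationSubring Qb} {ℓ : ℕ} (hℓ : ℓ.Prime) (hA : A.LiesOverPrime ℓ)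
    (F : IntermediateField ℚ Qb) [FiniteDimensional ℚ F] {ζ : Qbˣ} (hζ : IsPrimitiveRoot ζ p)
    (hζW : ζ ∈ fixU ↥(locSub F.fixingSubgroup A) Qb)
    (ψ : ↥(locSub F.fixingSubgroup A) →* Multiplicative (ZMod p))
    (hψ : IsSmoothChar (locLev F.fixingSubgroup A) ψ)
    (hne : ∃ s, ψ s ≠ 1) {c : ↥(locSub F.fixingSubgroup A) × ↥(locSub F.fixingSubgroup A) → ZMod p}
    (hc : c ∈ Z2 (locLev F.fixingSubgroup A)
      (1 : Representation (ZMod p) ↥(locSub F.fixingSubgroup A) (ZMod p))) :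
    ∃ y ∈ fixU ↥(locSub F.fixingSubgroup A) Qb, muEmb ζ ∘ c - Br.cyc ψ (Additive.ofMul y)
      ∈ B2 (locLev F.fixingSubgroup A) (uRep ↥(locSub F.fixingSubgroup A) Qb) := by
  have h : LS.IsLocSys (Ω := Qb) (locLev F.fixingSubgroup A) A.valuation :=
    Dict.isLocSys_locSub F hℓ hA
  obtain ⟨s, hs⟩ := hne
  have hσ := Lift.exists_sigma ψ hs
  have hχc : ∀ g : ↥(locSub F.fixingSubgroup A), uAct ↥(locSub F.fixingSubgroup A) Qb g ζ
      = ζ ^ (((1 : ↥(locSub F.fixingSubgroup A) →* (ZMod p)ˣ) g : (ZMod p)ˣ) : ZMod p).val := by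
    intro g
    rw [hζW g, MonoidHom.one_apply, Units.val_one, ZMod.val_one, pow_one]
  have hc' : muEmb ζ ∘ c ∈ Z2 (locLev F.fixingSubgroup A) (uRep ↥(locSub F.fixingSubgroup A) Qb) :=
    muEmb_comp_mem_Z2 hζ hχc (by rw [chiRep_one]; exact hc)
  have hp0 : p • (muEmb ζ ∘ c) = 0 := by
    funext g
    exact nsmul_muEmb hζ _
  exact h.exists_cyc_of_p_torsion hψ hσ hc' (by rw [hp0]; exact Submodule.zero_mem _)

/-- (c) restriction of helper51's lift to a local group, with values in `Qbˣ` -/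
theorem lift_loc {S : Finset Nat.Primes} {W : Subgroup GQ} (H : Subgroup ↥W)
    (ζS : (↥(QS S))ˣ) (χ : ↥W →* Multiplicative (ZMod p)) {u : Qb} (huS : u ∈ QS S) (hu0 : u ≠ 0)
    {x : ↥W × ↥W → ZMod p}
    (hx : muEmb ζS ∘ x - Fermat.Agent.CFT.cyc χ (mkQS huS hu0) ∈
        B2 ((levS S).sub W) (Fermat.Agent.CFT.resRep (qsRep S) W)) :
    muEmb (Units.map ((algebraMap ↥(QS S) Qb : ↥(QS S) →+* Qb) : ↥(QS S) →* Qb) ζS) ∘
        (x ∘ Prod.map H.subtype H.subtype)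
      - Br.cyc (χ.comp H.subtype) (Additive.ofMul (Units.mk0 u hu0))
      ∈ B2 ((levAll.sub W).sub H) (uRep ↥H Qb) := by
  have hcont : ∀ U ∈ ((levS S).sub W).carrier, ∃ V ∈ ((levAll.sub W).sub H).carrier,
      V ≤ U.comap H.subtype := by
    rintro _ ⟨U, hU, rfl⟩
    exact ⟨_, ⟨_, ⟨U, levS_le_levAll S hU, rfl⟩, rfl⟩, le_rfl⟩
  have h1 := comp_hom_mem_B2 H.subtype hcont hx
  have h2 := comp_mem_B2 (σ := uRep ↥H Qb) (qsToQb S) (fun g v => rfl) h1
  convert h2 using 1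
  funext g
  simp only [Function.comp_apply, Pi.sub_apply, map_sub]
  congr 1
  rw [Adapter.cyc_eq]
  rfl

end Fermat.Agent.CFT.Codim

namespace Fermat.Agent.CFT

open Fermat.Agent.CFT.Br Fermat.Agent.CFT.Global Fermat.Agent.Bridge Fermat.Agent.CFT.Codim

theorem codim_of_nice {p : ℕ} [Fact p.Prime] (hp2 : p ≠ 2) (S : Finset Nat.Primes)
    (hpS : pPrime p ∈ S) {W : Subgroup GQ} (hW : NiceLevel p S W) {ι : Type} [Fintype ι]
    [DecidableEq ι] (A : ι → ValuationSubring Qb) (hA : IsPlaceSystem S W A) :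
    ∃ c₀ ∈ (DF S W A).ZL2 (1 : Representation (ZMod p) (DF S W A).G (ZMod p)),
      ∀ c ∈ (DF S W A).ZL2 (1 : Representation (ZMod p) (DF S W A).G (ZMod p)),
        ∃ t : ZMod p, c - t • c₀ ∈ (DF S W A).RL2 (1 : Representation (ZMod p) (DF S W A).G (ZMod p)) := by
  classical
  have hp : p.Prime := Fact.out
  obtain ⟨N, η, hN, hη, hηp, -, hηloc⟩ := hW.kum
  obtain ⟨F, hF, hFn, rfl⟩ := hW.mem
  have hfd : FiniteDimensional ℚ F := hF.1
  have hFS : F ≤ QS S := le_QS_of_unram hF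
  -- the root of unity `ζ`
  have hη0 : η ≠ 0 := hη.ne_zero (pow_ne_zero _ hp.ne_zero)
  have hζ₀ : IsPrimitiveRoot (η ^ p ^ N) p :=
    hη.pow (pow_pos hp.pos _) (pow_succ p N)
  have hζfix : ∀ s ∈ F.fixingSubgroup, s (η ^ p ^ N) = η ^ p ^ N := by
    intro s hs
    obtain ⟨k, rfl⟩ : ∃ k, N = k + 1 := ⟨N - 1, by omega⟩
    rw [pow_succ' p k, pow_mul, map_pow, hηp s hs]
  have hηS : η ∈ QS S := rootOfUnity_mem_QS hpS hη.pow_eq_one
  have hζS₀ : η ^ p ^ N ∈ QS S := pow_mem hηS _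
  have hζ0 : η ^ p ^ N ≠ 0 := pow_ne_zero _ hη0
  set ζS : (↥(QS S))ˣ := Units.mk0 (⟨η ^ p ^ N, hζS₀⟩ : ↥(QS S))
    (fun h => hζ0 (congrArg Subtype.val h)) with hζSdef
  set ζ : Qbˣ := Units.map ((algebraMap ↥(QS S) Qb : ↥(QS S) →+* Qb) : ↥(QS S) →* Qb) ζS with hζdef
  have hζval : (ζ : Qb) = η ^ p ^ N := rfl
  have hζ : IsPrimitiveRoot ζ p := by
    rw [← IsPrimitiveRoot.coe_units_iff, hζval]
    exact hζ₀
  have hζSprim : IsPrimitiveRoot ζS p := by
    rw [← IsPrimitiveRoot.coe_units_iff]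
    exact IsPrimitiveRoot.of_map_of_injective (f := algebraMap ↥(QS S) Qb)
      (hf := (algebraMap ↥(QS S) Qb).injective) hζ₀
  -- the Kummer character
  set χ : ↥F.fixingSubgroup →* Multiplicative (ZMod p) :=
    kumChar hζ₀ F.fixingSubgroup hζfix hη0 hηp with hχdef
  have hχ1 : ∀ u : ↥F.fixingSubgroup, χ u = 1 ↔ (u : GQ) η = η :=
    kumChar_eq_one_iff hζ₀ F.fixingSubgroup hζfix hη0 hηp
  have hχS : ∃ V ∈ ((levS S).sub F.fixingSubgroup).carrier, V ≤ χ.ker :=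
    kumChar_smooth hζ₀ F.fixingSubgroup hζfix hη0 hηp hηS
  -- the primes below the places
  choose q hqS hqA using hA.lies
  have hloc : ∀ B : ValuationSubring Qb, locGroup (emb F) B = locG F.fixingSubgroup B := by
    intro B
    rw [locGroup, fixer_emb]
  let inst : ∀ v, MulSemiringAction ((DF S F.fixingSubgroup A).Gv v) Qb :=
    fun v => (inferInstance : MulSemiringAction ↥(locSub F.fixingSubgroup (A v)) Qb)
  have hfixU : ∀ (v : ι) (x : Qbˣ), (∀ s ∈ locG F.fixingSubgroup (A v), s (x : Qb) = x) →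
      x ∈ fixU ↥(locSub F.fixingSubgroup (A v)) Qb :=
    fun v x h g => Units.ext (h g.1.1 ⟨g.2, g.1.2⟩)
  have hfixU' : ∀ (v : ι) (x : Qbˣ), x ∈ fixU ↥(locSub F.fixingSubgroup (A v)) Qb →
      ∀ s ∈ locG F.fixingSubgroup (A v), s (x : Qb) = x :=
    fun v x h s hs => congrArg Units.val (h ⟨⟨s, hs.2⟩, hs.1⟩)
  have hsys : ∀ v, LS.IsLocSys (Ω := Qb) (locLev F.fixingSubgroup (A v)) (A v).valuation :=
    fun v => Dict.isLocSys_locSub F (q v).2 (hqA v)
  have hζU : ∀ v, ζ ∈ fixU ↥(locSub F.fixingSubgroup (A v)) Qb :=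
    fun v => hfixU v ζ (fun s hs => hζfix s hs.2)
  have hχloc : ∀ v, IsSmoothChar (locLev F.fixingSubgroup (A v))
      (χ.comp (locSub F.fixingSubgroup (A v)).subtype) := by
    intro v
    obtain ⟨_, ⟨U, hU, rfl⟩, hle⟩ := hχS
    exact ⟨_, ⟨_, ⟨U, levS_le_levAll S hU, rfl⟩, rfl⟩, fun s hs => hle hs⟩
  have hroot : ∀ x : Qbˣ, ∃ y, y ^ p = x := by
    intro x
    obtain ⟨y, hy⟩ := IsAlgClosed.exists_pow_nat_eq (x : Qb) hp.pos
    have hy0 : y ≠ 0 := by
      rintro rfl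
      rw [zero_pow hp.ne_zero] at hy
      exact x.ne_zero hy.symm
    exact ⟨Units.mk0 y hy0, Units.ext hy⟩
  refine codim_formal (DF S F.fixingSubgroup A) (Ω := Qb) (fun v => (hsys v).gal) hroot hζ hζU χ
    hχloc ?_ ?_
  · intro v c hc
    obtain ⟨s, hs, hsη⟩ := hηloc (q v) (hqS v) (A v) (hqA v)
    exact loc_cyc (q v).2 (hqA v) F hζ (hζU v) _ (hχloc v)
      ⟨⟨⟨s, hs.2⟩, hs.1⟩, fun h => hsη ((hχ1 ⟨s, hs.2⟩).1 h)⟩ hc
  · have hφS : ∀ x : ↥F, emb F x ∈ QS S := fun x => hFS x.2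
    have hfx : fixer (emb F) = F.fixingSubgroup := fixer_emb F
    have hFfix : ∀ (x : ↥F), ∀ s ∈ F.fixingSubgroup, s (emb F x) = emb F x := fun x s hs =>
      (IntermediateField.mem_fixingSubgroup_iff F s).1 hs x.1 x.2
    obtain ⟨s₀, hs₀, hs₀η⟩ := hηloc (pPrime p) hpS _ (LS.liesOverPrime_primeLocalPlace (pPrime p))
    obtain ⟨a₀, ha₀, H⟩ := second_ineq_Qb (φ := emb F) hp2 S hpS hφS hζ₀ (by rw [hfx]; exact hζfix)
      (by rw [hfx]; exact hηp) ⟨s₀, by rw [hfx]; exact hs₀.2, hs₀η⟩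
      ⟨p ^ (N + 1), pow_ne_zero _ hp.ne_zero, hη.pow_eq_one⟩
    refine ⟨Units.mk0 (emb F a₀) ((map_ne_zero _).2 ha₀),
      fun v => hfixU v _ (fun s hs => hFfix a₀ s hs.2), fun y hy => ?_⟩
    have hζKprim : IsPrimitiveRoot (⟨η ^ p ^ N, mem_of_fixed F hζfix⟩ : ↥F) p :=
      IsPrimitiveRoot.of_map_of_injective (f := emb F) (hf := (emb F).injective) hζ₀
    have hinj : ∀ i j, primeBelow (emb F) (A i) = primeBelow (emb F) (A j) → i = j := by
      intro i j h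
      have e1 : S14.Above (q i : ℕ) (placeBelow (emb F) (q i).2 (A i) (hqA i)) :=
        natCast_mem_primeBelow (emb F) (hqA i)
      have e2 : S14.Above (q j : ℕ) (placeBelow (emb F) (q i).2 (A i) (hqA i)) := by
        change ((q j : ℕ) : NumberField.RingOfIntegers ↥F) ∈ primeBelow (emb F) (A i)
        rw [h]
        exact natCast_mem_primeBelow (emb F) (hqA j)
      have e3 : (q i : ℕ) = q j := S14.above_unique (q i).2 (q j).2 e1 e2
      obtain ⟨n, hn, hnA⟩ := exists_smul_eq_of_primeBelow_eq (emb F) (q i).2 (hqA i)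
        (e3 ▸ hqA j) h
      exact hA.inj i j n (hfx ▸ hn) hnA
    obtain ⟨a, ha0, ha⟩ := exists_global_approx (φ := emb F) hζKprim A (fun i => (q i : ℕ))
      (fun i => (q i).2) hqA hinj (fun i => (y i : Qb)) (fun i => (y i).ne_zero)
      (fun i σ hσ => hfixU' i (y i) (hy i) σ (by rw [← hloc]; exact hσ))
    obtain ⟨t, u, hu0, h1, h2⟩ := H a ha0
    have huQ : emb F u ≠ 0 := (map_ne_zero _).2 hu0
    refine ⟨t, Units.mk0 (emb F u) huQ, fun v => ?_, ?_⟩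
    · obtain ⟨z, hz, hzf⟩ := (h1 (q v) (hqS v) (A v) (hqA v)).mul (ha v)
      have haQ : emb F a ≠ 0 := (map_ne_zero _).2 ha0
      have e : emb F (u * a * a₀ ^ t) * ((y v : Qb) / emb F a)
          = emb F u * (y v : Qb) * emb F a₀ ^ t := by
        rw [map_mul, map_mul, map_pow]
        field_simp
      rw [e] at hz
      have hz0 : z ≠ 0 := by
        rintro rfl
        rw [zero_pow hp.ne_zero] at hz
        exact mul_ne_zero (mul_ne_zero huQ (y v).ne_zero)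
          (pow_ne_zero _ ((map_ne_zero (emb F)).2 ha₀)) hz.symm
      exact ⟨Units.mk0 z hz0, hfixU v _ (fun s hs => hzf s (by rw [hloc]; exact hs)),
        Units.ext hz.symm⟩
    · obtain ⟨x, hx, hxB⟩ := Lift.exists_lift_cyc hpS F hF ζS hζSprim (mem_of_fixed F hζfix) χ hχS
        (u := emb F u) u.2 (hFS u.2) huQ (by
          rintro q' hq' B hB ⟨s, hsB, hsχ⟩
          exact h2 q' hq' B hB ⟨s, by rw [hloc]; exact ⟨hsB, s.2⟩, fun h => hsχ ((hχ1 s).2 h)⟩)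
      exact ⟨x, hx, fun v => lift_loc (locSub F.fixingSubgroup (A v)) ζS χ _ _ hxB⟩

end Fermat.Agent.CFT
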