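import Fermat.Agent.CFT.K.Datum
import Fermat.Agent.CFT.F.Shapiro.Defs
import Fermat.Agent.CFT.Global.GC.Setup

/-!
# CFT / Part T (targets) : definitions.

* `locG W A = D_A ⊓ W` : the local Galois group of the field `L = Qb^W` at the place `A` of `Qb`;
* `DF S W A` : the datum of the field `L = Qb^W` : global group `W` with the `S`-levels, local groups
  `Global.locSub W (A i) : Subgroup ↥W` (all levels: `Global.locLev`), `r` = inclusion,
  `A : ι → ValuationSubring Qb` a finite family of places;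
* `IsPlaceSystem S W A` : `A` is a system of representatives of the `W`-orbits of places over `S`
  (= the places of `L` over `S`, each exactly once);
* `NiceLevel p S W` : `L ∋ μ_{p^N}`, `N ≥ 1`, and no place over `S` splits in `L(μ_{p^(N+1)})`;
* `Datum.Iso` : isomorphism of data.
-/

set_option autoImplicit false

open ExtCitation
open scoped Pointwise

namespace Fermat.Agent.CFT

/-- the local Galois group of `Qb^W` at `A` -/
noncomputable abbrev locG (W : Subgroup GQ) (A : ValuationSubring Qb) : Subgroup GQ :=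
  A.decompositionSubgroup ℚ ⊓ W

/-- **The datum of the field `Qb^W`** (helper85's conventions of `Global/GC/Setup.lean`:
local groups `Global.locSub W (A i) : Subgroup ↥W` with the levels `Global.locLev W (A i)`). -/
noncomputable def DF (S : Finset Nat.Primes) (W : Subgroup GQ) {ι : Type} [Fintype ι]
    [DecidableEq ι] (A : ι → ValuationSubring Qb) : Datum where
  G := ↥W
  lev := (levS S).sub W
  ι := ι
  Gv i := ↥(Global.locSub W (A i))
  levv i := Global.locLev W (A i)
  r i := (Global.locSub W (A i)).subtype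
  cont := by
    rintro i _ ⟨U, hU, rfl⟩
    exact ⟨_, ⟨_, ⟨U, levS_le_levAll S hU, rfl⟩, rfl⟩, le_rfl⟩

/-- `A` represents every place of `Qb^W` over `S` exactly once -/
structure IsPlaceSystem (S : Finset Nat.Primes) (W : Subgroup GQ) {ι : Type}
    (A : ι → ValuationSubring Qb) : Prop where
  lies : ∀ i, ∃ q ∈ S, (A i).LiesOverPrime (q : ℕ)
  inj : ∀ i j, ∀ w ∈ W, w • A i = A j → i = j
  surj : ∀ q ∈ S, ∀ A' : ValuationSubring Qb, A'.LiesOverPrime (q : ℕ) → ∃ i, ∃ w ∈ W, w • A i = A'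

/-- nice levels -/
structure NiceLevel (p : ℕ) [Fact p.Prime] (S : Finset Nat.Primes) (W : Subgroup GQ) : Prop where
  mem : W ∈ (levS S).carrier
  mu : ∀ s ∈ W, cycloChar p s = 1
  /-- `η = ζ_{p^(N+1)}`, `η^p ∈ L`, `η ∈ Q_S`, `η ∉ L_w` for all `w ∣ S` -/
  kum : ∃ (N : ℕ) (η : Qb), 1 ≤ N ∧ IsPrimitiveRoot η (p ^ (N + 1)) ∧
    (∀ s ∈ W, s (η ^ p) = η ^ p) ∧ (∃ U ∈ (levS S).carrier, ∀ s ∈ U, s η = η) ∧
    ∀ q ∈ S, ∀ A : ValuationSubring Qb, A.LiesOverPrime (q : ℕ) → ∃ s ∈ locG W A, s η ≠ η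

/-- isomorphism of data (levels only up to cofinality) -/
structure Datum.Iso (D D' : Datum) where
  eG : D.G ≃* D'.G
  eι : D.ι ≃ D'.ι
  ev : ∀ v, D.Gv v ≃* D'.Gv (eι v)
  comm : ∀ v (h : D.Gv v), D'.r (eι v) (ev v h) = eG (D.r v h)
  lev_le : ∀ U ∈ D.lev.carrier, ∃ U' ∈ D'.lev.carrier, U'.comap eG.toMonoidHom ≤ U
  lev_ge : ∀ U' ∈ D'.lev.carrier, ∃ U ∈ D.lev.carrier, U ≤ U'.comap eG.toMonoidHom
  levv_le : ∀ v, ∀ U ∈ (D.levv v).carrier, ∃ U' ∈ (D'.levv (eι v)).carrier,
    U'.comap (ev v).toMonoidHom ≤ U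
  levv_ge : ∀ v, ∀ U' ∈ (D'.levv (eι v)).carrier, ∃ U ∈ (D.levv v).carrier,
    U ≤ U'.comap (ev v).toMonoidHom

/-- the places attached to a system of double coset representatives -/
noncomputable def restrPlace (S : Finset Nat.Primes) {W : Subgroup GQ} (R : (DS S).RestrData W)
    (w : Σ q : ↥S, R.O q) : ValuationSubring Qb :=
  ((show GQ from R.g w.1 w.2)⁻¹ : GQ) • primeLocalPlace w.1.1

end Fermat.Agent.CFT
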