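import Fermat.Agent.CFT.T.Defs
import Fermat.Agent.CFT.F.Transport

/-!
# CFT / T, WP TG2a : `GoodTriv` is invariant under isomorphisms of data.

Purely formal. Pull-back of cochains along `e.eG`, `e.ev v` (and re-indexing along `e.eι`) gives
mutually inverse linear maps preserving `Z1 B1 Z2 B2` (level-constancy only depends on the levels up
to cofinality: `lev_le`, `lev_ge`, ...), commuting with `res1`, `res2` (`comm`).
Use `comp_hom_mem_Z1/Z2/B1/B2` of `F/Basic.lean` (for `e` and `e.symm`) and `quot_iso` of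
`F/Transport.lean`. For the sum over `v` in `ineq'` use `Equiv.sum_comp e.eι`.
-/

set_option autoImplicit false

namespace Fermat.Agent.CFT

namespace IsoAux

open Module

variable {k : Type} [Field k]

section grp

variable {G H : Type} [Group G] [Group H] {𝒰 : Levels G} {𝒱 : Levels H} (φ : H ≃* G)
  (hle : ∀ U ∈ 𝒱.carrier, ∃ U' ∈ 𝒰.carrier, U'.comap φ.toMonoidHom ≤ U)
  (hge : ∀ U' ∈ 𝒰.carrier, ∃ U ∈ 𝒱.carrier, U ≤ U'.comap φ.toMonoidHom)

theorem one_comp' {G H : Type} [Group G] [Group H] (r : H →* G) :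
    (1 : Representation k G k).comp r = (1 : Representation k H k) := MonoidHom.one_comp r

include hle in
theorem hle_symm : ∀ U ∈ 𝒱.carrier, ∃ U' ∈ 𝒰.carrier, U' ≤ U.comap φ.symm.toMonoidHom := by
  intro U hU
  obtain ⟨U', hU', h⟩ := hle U hU
  refine ⟨U', hU', fun x hx => ?_⟩
  apply h
  show φ (φ.symm x) ∈ U'
  rwa [φ.apply_symm_apply]

include hge in
theorem pb_Z1 {a : G → k} (ha : a ∈ Z1 𝒰 (1 : Representation k G k)) :
    a ∘ φ ∈ Z1 𝒱 (1 : Representation k H k) := by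
  have := comp_hom_mem_Z1 φ.toMonoidHom hge ha
  rw [one_comp'] at this
  exact this

include hle in
theorem pb_Z1_symm {a : H → k} (ha : a ∈ Z1 𝒱 (1 : Representation k H k)) :
    a ∘ φ.symm ∈ Z1 𝒰 (1 : Representation k G k) := by
  have := comp_hom_mem_Z1 φ.symm.toMonoidHom (hle_symm φ hle) ha
  rw [one_comp'] at this
  exact this

theorem pb_B1 {a : G → k} (ha : a ∈ B1 (1 : Representation k G k)) :
    a ∘ φ ∈ B1 (1 : Representation k H k) := by
  have := comp_hom_mem_B1 φ.toMonoidHom ha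
  rw [one_comp'] at this
  exact this

theorem pb_B1_symm {a : H → k} (ha : a ∈ B1 (1 : Representation k H k)) :
    a ∘ φ.symm ∈ B1 (1 : Representation k G k) := by
  have := comp_hom_mem_B1 φ.symm.toMonoidHom ha
  rw [one_comp'] at this
  exact this

include hge in
theorem pb_Z2 {a : G × G → k} (ha : a ∈ Z2 𝒰 (1 : Representation k G k)) :
    a ∘ Prod.map φ φ ∈ Z2 𝒱 (1 : Representation k H k) := by
  have := comp_hom_mem_Z2 φ.toMonoidHom hge ha
  rw [one_comp'] at this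
  exact this

include hle in
theorem pb_Z2_symm {a : H × H → k} (ha : a ∈ Z2 𝒱 (1 : Representation k H k)) :
    a ∘ Prod.map φ.symm φ.symm ∈ Z2 𝒰 (1 : Representation k G k) := by
  have := comp_hom_mem_Z2 φ.symm.toMonoidHom (hle_symm φ hle) ha
  rw [one_comp'] at this
  exact this

include hge in
theorem pb_B2 {a : G × G → k} (ha : a ∈ B2 𝒰 (1 : Representation k G k)) :
    a ∘ Prod.map φ φ ∈ B2 𝒱 (1 : Representation k H k) := by
  have := comp_hom_mem_B2 φ.toMonoidHom hge ha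
  rw [one_comp'] at this
  exact this

include hle in
theorem pb_B2_symm {a : H × H → k} (ha : a ∈ B2 𝒱 (1 : Representation k H k)) :
    a ∘ Prod.map φ.symm φ.symm ∈ B2 𝒰 (1 : Representation k G k) := by
  have := comp_hom_mem_B2 φ.symm.toMonoidHom (hle_symm φ hle) ha
  rw [one_comp'] at this
  exact this

include hle hge in
theorem H1_iso : Nonempty (H1 𝒱 (1 : Representation k H k) ≃ₗ[k]
    H1 𝒰 (1 : Representation k G k)) :=
  Transport.quot_iso (LinearMap.funLeft k k φ.symm) (LinearMap.funLeft k k φ)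
    (fun a => funext fun x => by simp [LinearMap.funLeft_apply])
    (fun a => funext fun x => by simp [LinearMap.funLeft_apply])
    (fun _ ha => pb_Z1_symm φ hle ha) (fun _ ha => pb_Z1 φ hge ha)
    (fun _ ha => pb_B1_symm φ ha) (fun _ ha => pb_B1 φ ha)

end grp

theorem loc_one (D : Datum) (v : D.ι) :
    D.loc (1 : Representation k D.G k) v = (1 : Representation k (D.Gv v) k) :=
  MonoidHom.one_comp _

variable {D D' : Datum} (e : D.Iso D')

theorem r_symm (v : D.ι) (g : D'.Gv (e.eι v)) :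
    e.eG.symm (D'.r (e.eι v) g) = D.r v ((e.ev v).symm g) := by
  rw [MulEquiv.symm_apply_eq, ← e.comm, MulEquiv.apply_symm_apply]

theorem res2_pb (a : D'.G × D'.G → k) (v : D.ι) :
    D.res2 (k := k) (a ∘ Prod.map e.eG e.eG) v =
      D'.res2 (k := k) a (e.eι v) ∘ Prod.map (e.ev v) (e.ev v) := by
  funext g
  simp [e.comm]

theorem res2_pb_symm (a : D.G × D.G → k) (v : D.ι) :
    D'.res2 (k := k) (a ∘ Prod.map e.eG.symm e.eG.symm) (e.eι v) =
      D.res2 (k := k) a v ∘ Prod.map (e.ev v).symm (e.ev v).symm := by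
  funext g
  simp [r_symm]

theorem pb_ShaZ2 {a : D'.G × D'.G → k} (ha : a ∈ D'.ShaZ2 (1 : Representation k D'.G k)) :
    a ∘ Prod.map e.eG e.eG ∈ D.ShaZ2 (1 : Representation k D.G k) := by
  refine ⟨pb_Z2 e.eG e.lev_ge ha.1, ?_⟩
  intro v _
  show D.res2 (k := k) (a ∘ Prod.map e.eG e.eG) v ∈ _
  rw [res2_pb]
  exact pb_B2 (e.ev v) (e.levv_ge v) (ha.2 (e.eι v) trivial)

theorem pb_ShaZ2_symm {a : D.G × D.G → k} (ha : a ∈ D.ShaZ2 (1 : Representation k D.G k)) :
    a ∘ Prod.map e.eG.symm e.eG.symm ∈ D'.ShaZ2 (1 : Representation k D'.G k) := by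
  refine ⟨pb_Z2_symm e.eG e.lev_le ha.1, ?_⟩
  intro v' _
  obtain ⟨v, rfl⟩ := e.eι.surjective v'
  show D'.res2 (k := k) (a ∘ Prod.map e.eG.symm e.eG.symm) (e.eι v) ∈ _
  rw [res2_pb_symm]
  exact pb_B2_symm (e.ev v) (e.levv_le v) (ha.2 v trivial)

include e in
theorem Sha2_iso : Nonempty (D.Sha2 (1 : Representation k D.G k) ≃ₗ[k]
    D'.Sha2 (1 : Representation k D'.G k)) :=
  Transport.quot_iso (LinearMap.funLeft k k (Prod.map e.eG.symm e.eG.symm))
    (LinearMap.funLeft k k (Prod.map e.eG e.eG))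
    (fun a => funext fun ⟨x, y⟩ => by simp [LinearMap.funLeft_apply])
    (fun a => funext fun ⟨x, y⟩ => by simp [LinearMap.funLeft_apply])
    (fun _ ha => pb_ShaZ2_symm e ha) (fun _ ha => pb_ShaZ2 e ha)
    (fun _ ha => pb_B2_symm e.eG e.lev_le ha) (fun _ ha => pb_B2 e.eG e.lev_ge ha)

/-- pull-back of families of local 2-cochains -/
def pbL : (∀ v : D'.ι, D'.Gv v × D'.Gv v → k) →ₗ[k] (∀ v : D.ι, D.Gv v × D.Gv v → k) where
  toFun c v := c (e.eι v) ∘ Prod.map (e.ev v) (e.ev v)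
  map_add' _ _ := rfl
  map_smul' _ _ := rfl

theorem pbL_apply (c : ∀ v : D'.ι, D'.Gv v × D'.Gv v → k) (v : D.ι) :
    pbL e c v = c (e.eι v) ∘ Prod.map (e.ev v) (e.ev v) := rfl

theorem pbL_mem_ZL2 {c : ∀ v : D'.ι, D'.Gv v × D'.Gv v → k}
    (hc : c ∈ D'.ZL2 (1 : Representation k D'.G k)) :
    pbL e c ∈ D.ZL2 (1 : Representation k D.G k) := by
  intro v _
  exact pb_Z2 (e.ev v) (e.levv_ge v) (hc (e.eι v) trivial)

theorem pbL_mem_RL2 {c : ∀ v : D'.ι, D'.Gv v × D'.Gv v → k}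
    (hc : c ∈ D'.RL2 (1 : Representation k D'.G k)) :
    pbL e c ∈ D.RL2 (1 : Representation k D.G k) := by
  obtain ⟨y, hy, z, hz, rfl⟩ := Submodule.mem_sup.1 hc
  obtain ⟨a, ha, rfl⟩ := hz
  rw [map_add]
  refine Submodule.add_mem_sup ?_ ⟨a ∘ Prod.map e.eG e.eG, pb_Z2 e.eG e.lev_ge ha, ?_⟩
  · intro v _
    exact pb_B2 (e.ev v) (e.levv_ge v) (hy (e.eι v) trivial)
  · funext v
    rw [res2_pb]
    rfl

theorem exists_pbL_eq {c : ∀ v : D.ι, D.Gv v × D.Gv v → k}
    (hc : c ∈ D.ZL2 (1 : Representation k D.G k)) :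
    ∃ c' ∈ D'.ZL2 (1 : Representation k D'.G k), pbL e c' = c := by
  refine ⟨Equiv.piCongrLeft (fun v' => D'.Gv v' × D'.Gv v' → k) e.eι
    (fun v => c v ∘ Prod.map (e.ev v).symm (e.ev v).symm), ?_, ?_⟩
  · intro v' _
    obtain ⟨v, rfl⟩ := e.eι.surjective v'
    show Equiv.piCongrLeft (fun v' => D'.Gv v' × D'.Gv v' → k) e.eι
      (fun v => c v ∘ Prod.map (e.ev v).symm (e.ev v).symm) (e.eι v) ∈ _
    rw [Equiv.piCongrLeft_apply_apply]
    exact pb_Z2_symm (e.ev v) (e.levv_le v) (hc v trivial)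
  · funext v
    rw [pbL_apply, Equiv.piCongrLeft_apply_apply]
    funext ⟨g₁, g₂⟩
    simp

end IsoAux

open IsoAux Module in
theorem Datum.GoodTriv.of_iso {D D' : Datum} (e : D.Iso D') {k : Type} [Field k]
    (h : D'.GoodTriv k) : D.GoodTriv k := by
  obtain ⟨eH1⟩ := H1_iso (k := k) e.eG e.lev_le e.lev_ge
  have eL : ∀ v, Nonempty (H1 (D.levv v) (D.loc (1 : Representation k D.G k) v) ≃ₗ[k]
      H1 (D'.levv (e.eι v)) (D'.loc (1 : Representation k D'.G k) (e.eι v))) := fun v =>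
    H1_iso (k := k) (e.ev v) (e.levv_le v) (e.levv_ge v)
  obtain ⟨eS⟩ := Sha2_iso (k := k) e
  have := h.finH1
  have := h.finLoc1
  have := h.finSha2
  refine ⟨?_, Module.Finite.equiv eH1.symm, fun v => Module.Finite.equiv (eL v).some.symm,
    Module.Finite.equiv eS.symm, ?_⟩
  · obtain ⟨c₀, hc₀, hc⟩ := h.codim
    refine ⟨pbL e c₀, pbL_mem_ZL2 e hc₀, fun c hcZ => ?_⟩
    obtain ⟨c', hc', rfl⟩ := exists_pbL_eq e hcZ
    obtain ⟨t, ht⟩ := hc c' hc'
    refine ⟨t, ?_⟩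
    rw [← map_smul, ← map_sub]
    exact pbL_mem_RL2 e ht
  · rw [eH1.finrank_eq, eS.finrank_eq,
      Finset.sum_congr rfl (fun v _ => (eL v).some.finrank_eq),
      Equiv.sum_comp e.eι (fun v' => finrank k (H1 (D'.levv v')
        (D'.loc (1 : Representation k D'.G k) v')))]
    exact h.ineq'

end Fermat.Agent.CFT
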