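import Fermat.Agent.CFT.T.Defs
import Fermat.Agent.Common.PlaceBridge

/-!
# CFT / T, WP TG2b : the Shapiro-Mackey datum `(DS S).restr hW R` is isomorphic to the field datum
`DF S W (restrPlace S R)`.

`eG = refl`, `eι = refl`, `ev (q,o) : ↥(W.comap (decomp q).subtype) ≃* ↥(locSub W (g⁻¹ • A_q))`,
`h ↦ g⁻¹ h g` (`g = R.g q o`; `Fermat.Agent.Bridge.mem_decomposition_smul_iff`, `W` normal).
Levels: `levAll` consists of normal subgroups, so `U.comap (conj)` = `U.comap (subtype)`.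
-/

set_option autoImplicit false

open ExtCitation
open scoped Pointwise

namespace Fermat.Agent.CFT

/-- conjugation `h ↦ g⁻¹ h g` from `D_A ∩ W` (as a subgroup of `D_A`) to `D_{g⁻¹ A} ∩ W`
(as a subgroup of `W`). -/
noncomputable def conjLoc (W : Subgroup GQ) (hW : W.Normal) (A : ValuationSubring Qb) (g : GQ) :
    ↥(W.comap (A.decompositionSubgroup ℚ).subtype) ≃* ↥(Global.locSub W (g⁻¹ • A)) where
  toFun h := ⟨⟨g⁻¹ * (h : ↥(A.decompositionSubgroup ℚ)) * g, by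
      have := hW.conj_mem _ h.2 g⁻¹
      simpa using this⟩, by
    show _ ∈ (g⁻¹ • A).decompositionSubgroup ℚ
    rw [Fermat.Agent.Bridge.mem_decomposition_smul_iff]
    have h1 : (g⁻¹)⁻¹ * (g⁻¹ * ((h : ↥(A.decompositionSubgroup ℚ)) : GQ) * g) * g⁻¹ =
        ((h : ↥(A.decompositionSubgroup ℚ)) : GQ) := by group
    show (g⁻¹)⁻¹ * (g⁻¹ * ((h : ↥(A.decompositionSubgroup ℚ)) : GQ) * g) * g⁻¹ ∈ _
    rw [h1]
    exact (h : ↥(A.decompositionSubgroup ℚ)).2⟩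
  invFun t := ⟨⟨g * ((t : ↥W) : GQ) * g⁻¹, by
      have := (Fermat.Agent.Bridge.mem_decomposition_smul_iff (A := A) (σ := g⁻¹)
        (τ := ((t : ↥W) : GQ))).1 t.2
      simpa using this⟩, by
    have := hW.conj_mem _ (t : ↥W).2 g
    exact this⟩
  left_inv h := by
    apply Subtype.ext
    apply Subtype.ext
    show g * (g⁻¹ * ((h : ↥(A.decompositionSubgroup ℚ)) : GQ) * g) * g⁻¹ = _
    group
  right_inv t := by
    apply Subtype.ext
    apply Subtype.ext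
    show g⁻¹ * (g * ((t : ↥W) : GQ) * g⁻¹) * g = _
    group
  map_mul' a b := by
    apply Subtype.ext
    apply Subtype.ext
    show g⁻¹ * (((a : ↥(A.decompositionSubgroup ℚ)) : GQ) *
      ((b : ↥(A.decompositionSubgroup ℚ)) : GQ)) * g = (g⁻¹ * _ * g) * (g⁻¹ * _ * g)
    group

theorem conjLoc_coe (W : Subgroup GQ) (hW : W.Normal) (A : ValuationSubring Qb) (g : GQ)
    (h : ↥(W.comap (A.decompositionSubgroup ℚ).subtype)) :
    (((conjLoc W hW A g h : ↥(Global.locSub W (g⁻¹ • A))) : ↥W) : GQ) =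
      g⁻¹ * ((h : ↥(A.decompositionSubgroup ℚ)) : GQ) * g := rfl

theorem nonempty_iso_restr_DF (S : Finset Nat.Primes) {W : Subgroup GQ}
    (hW : W ∈ (levS S).carrier) (R : (DS S).RestrData W) :
    Nonempty (((DS S).restr hW R).Iso (DF S W (restrPlace S R))) := by
  have hWn : W.Normal := (levS S).normal W hW
  refine ⟨{
    eG := MulEquiv.refl _
    eι := Equiv.refl _
    ev := fun w => conjLoc W hWn (primeLocalPlace w.1.1) (R.g w.1 w.2)
    comm := fun w h => rfl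
    lev_le := fun U hU => ⟨U, hU, fun x hx => hx⟩
    lev_ge := fun U hU => ⟨U, hU, fun x hx => hx⟩
    levv_le := ?_
    levv_ge := ?_ }⟩
  · rintro w _ ⟨_, ⟨V, hV, rfl⟩, rfl⟩
    refine ⟨_, ⟨_, ⟨V, hV, rfl⟩, rfl⟩, ?_⟩
    intro x hx
    have hVn : V.Normal := levAll.normal V hV
    have h1 : (R.g w.1 w.2 : GQ)⁻¹ * ((x : ↥(decomp w.1.1)) : GQ) * (R.g w.1 w.2 : GQ) ∈ V := hx
    have h2 := hVn.conj_mem _ h1 (R.g w.1 w.2 : GQ)
    have h3 : (R.g w.1 w.2 : GQ) * ((R.g w.1 w.2 : GQ)⁻¹ * ((x : ↥(decomp w.1.1)) : GQ) *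
        (R.g w.1 w.2 : GQ)) * (R.g w.1 w.2 : GQ)⁻¹ = ((x : ↥(decomp w.1.1)) : GQ) := by group
    rw [h3] at h2
    exact h2
  · rintro w _ ⟨_, ⟨V, hV, rfl⟩, rfl⟩
    refine ⟨_, ⟨_, ⟨V, hV, rfl⟩, rfl⟩, ?_⟩
    intro x hx
    have hVn : V.Normal := levAll.normal V hV
    have h1 : ((x : ↥(decomp w.1.1)) : GQ) ∈ V := hx
    have h2 := hVn.conj_mem _ h1 (R.g w.1 w.2 : GQ)⁻¹
    rw [inv_inv] at h2
    exact h2

end Fermat.Agent.CFT
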