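import Fermat.Agent.CFT.T.Defs
import Fermat.Agent.CFT.Global.Num.LocH1
import Fermat.Agent.CFT.K.BridgeCyclo

/-!
# CFT / T, WP TG5 = (N-b) : `∑_{w ∣ S} h^1(L_w,F_p) ≤ 2 s + [L:ℚ]`.

`H = locG W (A i)`, `K = Qb^H` (henselian), `μ_p ⊂ K`.  Br/Kummer `card_H1_mu`:
`#H^1(H,μ_p) = (K^× : K^×p)` (needs `IsGalAct Qb (levAll.sub H)`, `chiRep 1 = 1`).
Common/PlaceBridgeHens: every `y ∈ K^×` is `φ(c)·(1+small)`, `c ∈ L^×` (`exists_close_of_fixed`),
`1+small` is a `p`-th power in `K` (`exists_root_fixed`), `φ(x)` is a `p`-th power in `K` iff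
`∀ n, LocPow p v n x` (`exists_root_fixed_iff`).  Global/LocalIndex `index_le`:
`L^×/{LocPow ∀ n}` has `≤ p^2 · N(v)^(ord_v p)` elements; `prod_absNorm_pow_above`: `∏_{v ∣ p} N(v)^(ord_v p) = p^n`.
`i ↦ primeBelow φ (A i)` is injective (`IsPlaceSystem.inj`, `Bridge.exists_smul_eq_of_primeBelow_eq`).
`[L:ℚ] = W.index`.
-/

set_option autoImplicit false

open ExtCitation Module

namespace Fermat.Agent.CFT

/-- `μ_p ⊂ F` if the mod `p` cyclotomic character is trivial on `Fix F`. -/
theorem exists_primitiveRoot_of_cycloChar {p : ℕ} [Fact p.Prime] (F : IntermediateField ℚ Qb)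
    (h : ∀ s ∈ F.fixingSubgroup, cycloChar p s = 1) : ∃ ζ : ↥F, IsPrimitiveRoot ζ p := by
  have hp : p.Prime := Fact.out
  have : Fact (1 < p) := ⟨hp.one_lt⟩
  have : NeZero p := ⟨hp.ne_zero⟩
  obtain ⟨ζ, hζ⟩ := HasEnoughRootsOfUnity.exists_primitiveRoot Qb p
  obtain ⟨x, hx⟩ := Bridge.exists_of_fixed (Global.emb F) (y := ζ) (fun σ hσ => by
    rw [Global.fixer_emb] at hσ
    have h2 := Fermat.Agent.GAL.cycloChar_spec p σ hζ.pow_eq_one
    rw [← cycloChar_eq_gal, h σ hσ, Units.val_one, ZMod.val_one, pow_one] at h2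
    exact h2)
  refine ⟨x, IsPrimitiveRoot.of_map_of_injective (f := Global.emb F) ?_ (Global.emb F).injective⟩
  rw [hx]
  exact hζ

theorem locH1_of_nice {p : ℕ} [Fact p.Prime] (hp2 : p ≠ 2) (S : Finset Nat.Primes)
    (hpS : pPrime p ∈ S) {W : Subgroup GQ} (hW : NiceLevel p S W) {ι : Type} [Fintype ι]
    [DecidableEq ι] (A : ι → ValuationSubring Qb) (hA : IsPlaceSystem S W A) :
    (∀ i, Module.Finite (ZMod p) (H1 (Global.locLev W (A i))
      (1 : Representation (ZMod p) ↥(Global.locSub W (A i)) (ZMod p)))) ∧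
    ∑ i, finrank (ZMod p) (H1 (Global.locLev W (A i))
      (1 : Representation (ZMod p) ↥(Global.locSub W (A i)) (ZMod p))) ≤
        2 * Fintype.card ι + W.index := by
  classical
  have hp : p.Prime := Fact.out
  obtain ⟨F, hF, hFn, rfl⟩ := hW.mem
  have hfd : FiniteDimensional ℚ F := hF.1
  obtain ⟨ζ, hζ⟩ := exists_primitiveRoot_of_cycloChar F hW.mu
  choose q hqS hq using hA.lies
  have hcard := fun i => Global.card_locH1_le F hζ (q i).2 (hq i)
  have hfin : ∀ i, Finite (H1 (Global.locLev F.fixingSubgroup (A i))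
      (1 : Representation (ZMod p) ↥(Global.locSub F.fixingSubgroup (A i)) (ZMod p))) :=
    fun i => Nat.finite_of_card_ne_zero (hcard i).1
  have hmf : ∀ i, Module.Finite (ZMod p) (H1 (Global.locLev F.fixingSubgroup (A i))
      (1 : Representation (ZMod p) ↥(Global.locSub F.fixingSubgroup (A i)) (ZMod p))) :=
    fun i => Module.Finite.of_finite
  refine ⟨hmf, ?_⟩
  -- injectivity of `i ↦ v_i`
  have hinj : Function.Injective (fun i => Global.plA F (q i).2 (A i) (hq i)) := by
    intro i j hij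
    have h1 : Bridge.primeBelow (Global.emb F) (A i) = Bridge.primeBelow (Global.emb F) (A j) :=
      congrArg (·.asIdeal) hij
    have hqq : ((q i : Nat.Primes) : ℕ) = (q j : Nat.Primes) := by
      refine S14.above_unique (v := Global.plA F (q i).2 (A i) (hq i)) (q i).2 (q j).2
        (Bridge.natCast_mem_primeBelow (Global.emb F) (hq i)) ?_
      change ((q j : ℕ) : NumberField.RingOfIntegers ↥F) ∈ Bridge.primeBelow (Global.emb F) (A i)
      rw [h1]
      exact Bridge.natCast_mem_primeBelow (Global.emb F) (hq j)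
    obtain ⟨n, hn, hn'⟩ := Bridge.exists_smul_eq_of_primeBelow_eq (Global.emb F) (q i).2
      (hq i) (hqq ▸ hq j) h1
    rw [Global.fixer_emb] at hn
    exact hA.inj i j n hn hn'
  have hprod := Global.prod_absNorm_pow_le (p := p) _ hinj
  have hidx : F.fixingSubgroup.index = finrank ℚ F := by
    have := isGalois_Qb
    exact (IntermediateField.finrank_eq_fixingSubgroup_index (E' := Qb) F).symm
  rw [hidx]
  have hpow : ∀ i, Nat.card (H1 (Global.locLev F.fixingSubgroup (A i))
      (1 : Representation (ZMod p) ↥(Global.locSub F.fixingSubgroup (A i)) (ZMod p))) =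
      p ^ finrank (ZMod p) (H1 (Global.locLev F.fixingSubgroup (A i))
      (1 : Representation (ZMod p) ↥(Global.locSub F.fixingSubgroup (A i)) (ZMod p))) := by
    intro i
    have := hfin i
    have := Fintype.ofFinite (H1 (Global.locLev F.fixingSubgroup (A i))
      (1 : Representation (ZMod p) ↥(Global.locSub F.fixingSubgroup (A i)) (ZMod p)))
    rw [Nat.card_eq_fintype_card, Module.card_eq_pow_finrank (K := ZMod p), ZMod.card]
  rw [← Nat.pow_le_pow_iff_right hp.one_lt, ← Finset.prod_pow_eq_pow_sum]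
  calc _ = ∏ i, Nat.card (H1 (Global.locLev F.fixingSubgroup (A i))
      (1 : Representation (ZMod p) ↥(Global.locSub F.fixingSubgroup (A i)) (ZMod p))) :=
        Finset.prod_congr rfl fun i _ => (hpow i).symm
    _ ≤ ∏ i, (p ^ 2 * Ideal.absNorm (Global.plA F (q i).2 (A i) (hq i)).asIdeal ^
        (S14.ord (Global.plA F (q i).2 (A i) (hq i)) (p : ↥F)).toNat) :=
        Finset.prod_le_prod' fun i _ => (hcard i).2
    _ = (p ^ 2) ^ Fintype.card ι * ∏ i, Ideal.absNorm (Global.plA F (q i).2 (A i) (hq i)).asIdeal ^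
        (S14.ord (Global.plA F (q i).2 (A i) (hq i)) (p : ↥F)).toNat := by
        rw [Finset.prod_mul_distrib, Finset.prod_const, Finset.card_univ]
    _ ≤ (p ^ 2) ^ Fintype.card ι * p ^ finrank ℚ F := Nat.mul_le_mul_left _ hprod
    _ = _ := by rw [← pow_mul, ← pow_add]

end Fermat.Agent.CFT
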