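import Fermat.Agent.CFT.T.Defs
import Fermat.Agent.CFT.LS.Cores
import Fermat.Agent.CFT.LS.Inst
import Fermat.Agent.CFT.K.BridgeCyclo

/-!
# CFT / T, WP TG9 : the two LOCAL statements at `p` over `ℚ_p` (helper73, LS layer).

`D = decomp (pPrime p)` with all levels, `μ = (chiRep (cycloChar p)).comp D.subtype`.
* `h2_le_one` : `dim H^2(D,μ_p) ≤ 1`;
* `cores_ne_zero` : for every open normal `W ≤ D` the corestriction `H^2(W,μ_p) → H^2(D,μ_p)` is nonzero, in the
  form: some `c ∈ Z2(D, Map(D/W,μ_p))` has `∑_x c(·)(x) ∉ B2(D,μ_p)`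
  (Shapiro: `c = co2 c'`, F/Shapiro/Core.lean or SM/Core.lean; `mapRepSum ∘ co2 c'` = corestriction of `c'`).

PROVED here as glue from the LS layer: `LS.isLocSys_decomp`, `IsLocSys.exists_not_mem_B2_mu`,
`IsLocSys.exists_smul_sub_mem_B2` (LS-BRP), `IsLocSys.exists_cores_not_mem_B2` (LS-COR).
-/

set_option autoImplicit false

open ExtCitation

namespace Fermat.Agent.CFT

theorem chiRep_comp_eq {k : Type} [CommRing k] {G H : Type} [Group G] [Group H] (χ : G →* kˣ)
    (f : H →* G) : (chiRep χ).comp f = chiRep (χ.comp f) := rfl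

/-- a primitive `p`-th root of unity in `Qbˣ`, with the action of any subgroup of `GQ` on it -/
theorem exists_zeta_sub (p : ℕ) [Fact p.Prime] (D : Subgroup GQ) :
    ∃ ζ : Qbˣ, IsPrimitiveRoot ζ p ∧
      ∀ g : ↥D, Br.uAct ↥D Qb g ζ = ζ ^ (((cycloChar p).comp D.subtype) g : ZMod p).val := by
  obtain ⟨ζ, hζ⟩ := HasEnoughRootsOfUnity.exists_primitiveRoot Qb p
  have h0 : ζ ≠ 0 := hζ.ne_zero (Fact.out : p.Prime).ne_zero
  refine ⟨Units.mk0 ζ h0, ?_, fun g => ?_⟩
  · rw [← IsPrimitiveRoot.coe_units_iff]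
    exact hζ
  · apply Units.ext
    have := Fermat.Agent.GAL.cycloChar_spec p (g : GQ) hζ.pow_eq_one
    rw [Units.val_pow_eq_pow_val]
    exact this

theorem h2_le_one {p : ℕ} [Fact p.Prime] (_hp2 : p ≠ 2) :
    ∃ c₀ ∈ Z2 (levAll.comap (decomp (pPrime p)).subtype)
        ((chiRep (cycloChar p)).comp (decomp (pPrime p)).subtype),
      ∀ c ∈ Z2 (levAll.comap (decomp (pPrime p)).subtype)
        ((chiRep (cycloChar p)).comp (decomp (pPrime p)).subtype), ∃ t : ZMod p,
        c - t • c₀ ∈ B2 (levAll.comap (decomp (pPrime p)).subtype)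
          ((chiRep (cycloChar p)).comp (decomp (pPrime p)).subtype) := by
  obtain ⟨ζ, hζ, hact⟩ := exists_zeta_sub p (decomp (pPrime p))
  have hls := LS.isLocSys_decomp (pPrime p)
  obtain ⟨c₀, hc₀, hn⟩ := hls.exists_not_mem_B2_mu hζ hact
  exact ⟨c₀, hc₀, fun c hc => hls.exists_smul_sub_mem_B2 hζ hact hc₀ hn hc⟩

theorem cores_ne_zero {p : ℕ} [Fact p.Prime] (_hp2 : p ≠ 2)
    (W : Subgroup ↥(decomp (pPrime p))) (hW : W ∈ (levAll.comap (decomp (pPrime p)).subtype).carrier)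
    [Fintype (↥(decomp (pPrime p)) ⧸ W)] :
    ∃ c ∈ Z2 (levAll.comap (decomp (pPrime p)).subtype)
        (mapRep W ((chiRep (cycloChar p)).comp (decomp (pPrime p)).subtype)),
      (fun g => mapRepSum (k := ZMod p) W (c g)) ∉
        B2 (levAll.comap (decomp (pPrime p)).subtype)
          ((chiRep (cycloChar p)).comp (decomp (pPrime p)).subtype) := by
  obtain ⟨ζ, hζ, hact⟩ := exists_zeta_sub p (decomp (pPrime p))
  exact (LS.isLocSys_decomp (pPrime p)).exists_cores_not_mem_B2 hζ hact hW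

end Fermat.Agent.CFT
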