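import Fermat.Agent.CFT.T.Defs
import Fermat.Agent.CFT.K.Bridge
import Fermat.Agent.Common.PlaceBridgeKummer
import Fermat.Agent.Common.PlaceBridgeLocal

/-!
# CFT / T, WP TG3 : nice levels are cofinal.

Given `U = Fix F`. Put `F' = F(ζ_p)`, `V = Fix F'`.
* (Claim 1, `exists_moving`) for every prime `q` there is `m` such that for every place `A` over `q`
  some `σ ∈ D_A ∩ V` moves the primitive `p^m`-th roots of unity.
  `q ≠ p`: a Frobenius lift `τ ∈ D_A` acts on `μ_{p^m}` by `ζ ↦ ζ^q`, `τ^d ∈ V` for `d = (GQ : V)`,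
  and `q^d ≢ 1 mod p^m` for `p^m > q^d`.
  `q = p`: the value group of `Qb^(D_A ∩ V)` is generated by `v(ϖ)`, `ϖ ∈ F'`
  (`Bridge.exists_uniformizer_fixed`), and `v(ζ_{p^m} - 1)^φ(p^m) = v(p)`; this gives the claim for one
  place, and all places over `p` are conjugate (`V` is normal).
* `N = 1 + max_{q ∈ S} m(q)`, `η = ζ_{p^(N+1)}`, `W = Fix F(η^p)`.
* (`exists_pow_moving`) if `σ` fixes `ζ_p` and moves `η`, then some power `σ^j` fixes `η^p` and moves
  `η`: `σ η = η^u`, `v_p(u - 1) = n` with `1 ≤ n ≤ N`, and `v_p(u^(p^(N-n)) - 1) = N`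
  (lifting the exponent, `p` odd).
* `ℚ(ζ_{p^m})` is unramified outside `p ∈ S` (`Bridge.apply_eq_of_mem_inertia_of_pow`).
-/

set_option autoImplicit false

open ExtCitation
open scoped Pointwise

namespace Fermat.Agent.CFT

namespace Nice

open Fermat.Agent.Bridge Fermat.Agent.S54


/-- an automorphism fixing a primitive `m`-th root of unity fixes all `m`-th roots of unity -/
theorem apply_eq_of_primitive {m : ℕ} (hm : m ≠ 0) {ζ ξ : Qb} (hζ : IsPrimitiveRoot ζ m)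
    (hξ : ξ ^ m = 1) {σ : GQ} (h : σ ζ = ζ) : σ ξ = ξ := by
  have : NeZero m := ⟨hm⟩
  obtain ⟨i, -, rfl⟩ := hζ.eq_pow_of_pow_eq_one hξ
  rw [map_pow, h]

theorem pow_eq_pow_iff {n : ℕ} (hn : n ≠ 0) {η : Qb} (hη : IsPrimitiveRoot η n) {a b : ℕ}
    (hab : b ≤ a) : η ^ a = η ^ b ↔ n ∣ a - b := by
  have hfin : IsOfFinOrder η :=
    isOfFinOrder_iff_pow_eq_one.mpr ⟨n, Nat.pos_of_ne_zero hn, hη.pow_eq_one⟩
  rw [hfin.pow_eq_pow_iff_modEq, ← hη.eq_orderOf, Nat.ModEq.comm, Nat.modEq_iff_dvd' hab]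

theorem pow_apply_of_apply {η : Qb} {σ : GQ} {u : ℕ} (h : σ η = η ^ u) (j : ℕ) :
    (σ ^ j) η = η ^ (u ^ j) := by
  induction j with
  | zero => simp
  | succ j ih =>
    rw [pow_succ, AlgEquiv.mul_apply, h, map_pow, ih, ← pow_mul, ← pow_succ]

/-- **Lifting the exponent.** -/
theorem exists_pow_moving {p : ℕ} [Fact p.Prime] (hp2 : p ≠ 2) {N : ℕ} {η : Qb}
    (hη : IsPrimitiveRoot η (p ^ (N + 1))) {σ : GQ} (h1 : σ (η ^ (p ^ N)) = η ^ (p ^ N))
    (h2 : σ η ≠ η) : ∃ j : ℕ, (σ ^ j) (η ^ p) = η ^ p ∧ (σ ^ j) η ≠ η := by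
  have hp : p.Prime := Fact.out
  have hn0 : p ^ (N + 1) ≠ 0 := pow_ne_zero _ hp.ne_zero
  have : NeZero (p ^ (N + 1)) := ⟨hn0⟩
  obtain ⟨u, -, hu⟩ := hη.eq_pow_of_pow_eq_one (ξ := σ η) (by rw [← map_pow, hη.pow_eq_one, map_one])
  have hu' : σ η = η ^ u := hu.symm
  have hη0 : η ≠ 0 := hη.ne_zero hn0
  have hu0 : u ≠ 0 := by
    rintro rfl
    rw [pow_zero] at hu'
    have : σ η = σ 1 := by rw [hu', map_one]
    have h3 := σ.injective this
    exact h2 (by rw [h3, map_one])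
  have hu1 : u ≠ 1 := by
    rintro rfl
    rw [pow_one] at hu'
    exact h2 hu'
  have hu2 : 1 < u := by omega
  have hdvd : p ∣ u - 1 := by
    rw [map_pow, hu', ← pow_mul, pow_eq_pow_iff hn0 hη (Nat.le_mul_of_pos_left _ (by omega))] at h1
    have h3 : u * p ^ N - p ^ N = (u - 1) * p ^ N := by
      rw [Nat.sub_mul, one_mul]
    rw [h3, pow_succ, mul_comm] at h1
    exact Nat.dvd_of_mul_dvd_mul_right (pow_pos hp.pos N) h1
  have hndvd : ¬ p ∣ u := by
    intro h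
    have h3 : p ∣ u - (u - 1) := Nat.dvd_sub h hdvd
    have h4 : u - (u - 1) = 1 := by omega
    rw [h4] at h3
    exact hp.one_lt.ne' (Nat.dvd_one.mp h3)
  have hodd : Odd p := hp.odd_of_ne_two hp2
  have hne : u - 1 ≠ 0 := by omega
  set n := padicValNat p (u - 1) with hn
  have hnN : n ≤ N := by
    by_contra hlt
    have h3 : p ^ (N + 1) ∣ u - 1 := (padicValNat_dvd_iff_le hne).mpr (by omega)
    apply h2
    rw [hu']
    conv_rhs => rw [← pow_one η]
    exact (pow_eq_pow_iff hn0 hη hu2.le).mpr h3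
  have hj0 : p ^ (N - n) ≠ 0 := pow_ne_zero _ hp.ne_zero
  have hval : padicValNat p (u ^ (p ^ (N - n)) - 1) = N := by
    have h3 := padicValNat.pow_sub_pow hodd hu2 hdvd hndvd hj0
    rw [one_pow, padicValNat.prime_pow, ← hn] at h3
    omega
  have hU1 : 1 < u ^ (p ^ (N - n)) := Nat.one_lt_pow hj0 hu2
  have hUne : u ^ (p ^ (N - n)) - 1 ≠ 0 := by omega
  refine ⟨p ^ (N - n), ?_, ?_⟩
  · rw [map_pow, pow_apply_of_apply hu', ← pow_mul,
      pow_eq_pow_iff hn0 hη (Nat.le_mul_of_pos_left _ (by omega))]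
    have h3 : u ^ (p ^ (N - n)) * p - p = (u ^ (p ^ (N - n)) - 1) * p := by
      rw [Nat.sub_mul, one_mul]
    rw [h3, pow_succ]
    exact Nat.mul_dvd_mul_right ((padicValNat_dvd_iff_le hUne).mpr hval.ge) p
  · rw [pow_apply_of_apply hu']
    intro h
    conv_rhs at h => rw [← pow_one η]
    rw [pow_eq_pow_iff hn0 hη hU1.le, padicValNat_dvd_iff_le hUne, hval] at h
    omega

/-- a Frobenius at `q` raises the roots of unity of order prime to `q` to the `q`-th power -/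
theorem frob_apply {q M : ℕ} (hq : q.Prime) (hM : Nat.Coprime q M) {A : ValuationSubring Qb}
    (hA : A.LiesOverPrime q) {τ : GQ} (hτ : A.IsFrobeniusAt τ q) {ξ : Qb} (hξ : ξ ^ M = 1) :
    τ ξ = ξ ^ q := by
  have hM0 : M ≠ 0 := by
    rintro rfl
    rw [Nat.coprime_zero_right] at hM
    exact hq.one_lt.ne' hM
  have hξ0 : ξ ≠ 0 := by
    rintro rfl
    rw [zero_pow hM0] at hξ
    exact zero_ne_one hξ
  have hint : IsIntegral ℤ ξ :=
    ⟨Polynomial.X ^ M - 1, Polynomial.monic_X_pow_sub_C 1 hM0, by simp [hξ]⟩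
  have h1 := sub_pow_mem_centre_of_isFrobeniusAt hτ ⟨ξ, hint⟩
  rw [mem_centre_iff] at h1
  have h2 : A.valuation (τ ξ - ξ ^ q) < 1 := h1
  by_contra hne
  set μ := τ ξ / ξ ^ q with hμ
  have hq0 : ξ ^ q ≠ 0 := pow_ne_zero _ hξ0
  have hμM : μ ^ M = 1 := by
    rw [hμ, div_pow, ← map_pow, hξ, map_one, ← pow_mul, mul_comm, pow_mul, hξ, one_pow, div_one]
  have hμ1 : μ ≠ 1 := by
    intro h
    rw [hμ, div_eq_one_iff_eq hq0] at h
    exact hne h
  have h3 := valuation_sub_one_eq_one hA hq hM hμM hμ1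
  have h4 : τ ξ - ξ ^ q = (μ - 1) * ξ ^ q := by
    rw [hμ]; field_simp
  rw [h4, map_mul, h3, one_mul, map_pow, valuation_eq_one_of_pow_eq_one hM0 hξ, one_pow] at h2
  exact lt_irrefl _ h2

/-- Claim 1, `q ≠ p`. -/
theorem exists_moving_of_ne {p q : ℕ} (hp : p.Prime) (hq : q.Prime) (hqp : q ≠ p)
    (V : Subgroup GQ) [V.Normal] [V.FiniteIndex] :
    ∃ m : ℕ, ∀ A : ValuationSubring Qb, A.LiesOverPrime q →
      ∃ σ ∈ A.decompositionSubgroup ℚ ⊓ V, ∀ ζ : Qb, IsPrimitiveRoot ζ (p ^ m) → σ ζ ≠ ζ := by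
  refine ⟨q ^ V.index, fun A hA => ?_⟩
  obtain ⟨τ, hτ⟩ := exists_isFrobeniusAt_of_liesOverPrime hq A hA
  refine ⟨τ ^ V.index, ⟨Subgroup.pow_mem _ hτ.mem_decompositionSubgroup _,
    Subgroup.pow_index_mem V τ⟩, fun ζ hζ h => ?_⟩
  have hcop : Nat.Coprime q (p ^ (q ^ V.index)) :=
    Nat.Coprime.pow_right _ ((Nat.coprime_primes hq hp).mpr hqp)
  have hn0 : p ^ (q ^ V.index) ≠ 0 := pow_ne_zero _ hp.ne_zero
  rw [pow_apply_of_apply (frob_apply hq hcop hA hτ hζ.pow_eq_one)] at h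
  conv_rhs at h => rw [← pow_one ζ]
  have h1 : 1 < q ^ V.index := Nat.one_lt_pow Subgroup.FiniteIndex.index_ne_zero hq.one_lt
  rw [pow_eq_pow_iff hn0 hζ h1.le] at h
  have h2 := Nat.le_of_dvd (by omega) h
  have h3 : q ^ V.index < p ^ (q ^ V.index) := Nat.lt_pow_self hp.one_lt
  omega

/-- two primitive roots of unity of the same order are at the same distance of `1` -/
theorem valuation_sub_one_eq_of_primitive {A : ValuationSubring Qb} {n : ℕ} (hn : n ≠ 0)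
    {ζ ν : Qb} (hζ : IsPrimitiveRoot ζ n) (hν : IsPrimitiveRoot ν n) :
    A.valuation (ν - 1) = A.valuation (ζ - 1) := by
  have : NeZero n := ⟨hn⟩
  have key : ∀ {a b : Qb}, a ^ n = 1 → (∃ i : ℕ, a ^ i = b) →
      A.valuation (b - 1) ≤ A.valuation (a - 1) := by
    rintro a b ha ⟨i, rfl⟩
    rw [← mul_geom_sum a i, map_mul]
    calc _ ≤ A.valuation (a - 1) * 1 :=
          mul_le_mul_right (valuation_geom_sum_le_one hn ha i) _
      _ = _ := mul_one _
  refine le_antisymm (key hζ.pow_eq_one ?_) (key hν.pow_eq_one ?_)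
  · obtain ⟨i, -, hi⟩ := hζ.eq_pow_of_pow_eq_one hν.pow_eq_one
    exact ⟨i, hi⟩
  · obtain ⟨i, -, hi⟩ := hν.eq_pow_of_pow_eq_one hζ.pow_eq_one
    exact ⟨i, hi⟩

/-- `v(p) = v(ζ - 1) ^ φ(p^(k+1))`. -/
theorem valuation_natCast_eq_pow_totient {A : ValuationSubring Qb} {p : ℕ} [Fact p.Prime] (k : ℕ)
    {ζ : Qb} (hζ : IsPrimitiveRoot ζ (p ^ (k + 1))) :
    A.valuation (p : Qb) = A.valuation (ζ - 1) ^ (Nat.totient (p ^ (k + 1))) := by
  have hp : p.Prime := Fact.out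
  have hn0 : p ^ (k + 1) ≠ 0 := pow_ne_zero _ hp.ne_zero
  have h1 : Polynomial.eval 1 (Polynomial.cyclotomic (p ^ (k + 1)) Qb) = p :=
    Polynomial.eval_one_cyclotomic_prime_pow k
  rw [Polynomial.cyclotomic_eq_prod_X_sub_primitiveRoots hζ, Polynomial.eval_prod] at h1
  rw [← h1, map_prod, ← hζ.card_primitiveRoots, ← Finset.prod_const]
  refine Finset.prod_congr rfl (fun μ hμ => ?_)
  rw [mem_primitiveRoots (Nat.pos_of_ne_zero hn0)] at hμ
  rw [Polynomial.eval_sub, Polynomial.eval_X, Polynomial.eval_C, ← neg_sub, Valuation.map_neg]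
  exact valuation_sub_one_eq_of_primitive hn0 hζ hμ

/-- Claim 1, `q = p`, one place. -/
theorem exists_moving_self {p : ℕ} [Fact p.Prime] (F : IntermediateField ℚ Qb)
    [FiniteDimensional ℚ F] (A : ValuationSubring Qb) (hA : A.LiesOverPrime p) :
    ∃ m : ℕ, ∃ σ ∈ A.decompositionSubgroup ℚ ⊓ F.fixingSubgroup,
      ∀ ζ : Qb, IsPrimitiveRoot ζ (p ^ m) → σ ζ ≠ ζ := by
  have hp : p.Prime := Fact.out
  by_contra hcon
  push Not at hcon
  have : NumberField ↥F := { to_charZero := inferInstance, to_finiteDimensional := inferInstance }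
  let φ : ↥F →+* Qb := algebraMap ↥F Qb
  have hloc : ∀ σ ∈ locGroup φ A, σ ∈ A.decompositionSubgroup ℚ ⊓ F.fixingSubgroup := by
    intro σ hσ
    refine ⟨hσ.1, ?_⟩
    show σ ∈ F.fixingSubgroup
    rw [IntermediateField.mem_fixingSubgroup_iff]
    intro x hx
    exact hσ.2 ⟨x, hx⟩
  obtain ⟨ϖ, hϖ0, hϖ1, hϖ⟩ := exists_uniformizer_fixed (φ := φ) hp hA
  set γ := A.valuation (φ ϖ) with hγ
  have hγ0 : 0 < γ := by
    rw [hγ, zero_lt_iff, A.valuation.ne_zero_iff]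
    exact (map_ne_zero φ).mpr hϖ0
  have hanti := zpow_right_strictAnti₀ hγ0 hϖ1
  obtain ⟨e, he⟩ := hϖ (p : Qb) (by exact_mod_cast hp.ne_zero) (fun σ _ => map_natCast σ p)
  have : NeZero (p ^ (e.toNat + 1)) := ⟨pow_ne_zero _ hp.ne_zero⟩
  obtain ⟨ζ, hζ⟩ := HasEnoughRootsOfUnity.exists_primitiveRoot Qb (p ^ (e.toNat + 1))
  have hζ1 : ζ - 1 ≠ 0 := sub_ne_zero.mpr (hζ.ne_one (Nat.one_lt_pow (by omega) hp.one_lt))
  obtain ⟨k, hk⟩ := hϖ (ζ - 1) hζ1 (fun σ hσ => by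
    obtain ⟨ζ', hζ', h⟩ := hcon (e.toNat + 1) σ (hloc σ hσ)
    rw [map_sub, map_one, apply_eq_of_primitive (pow_ne_zero _ hp.ne_zero) hζ' hζ.pow_eq_one h])
  have h1 := valuation_natCast_eq_pow_totient (A := A) e.toNat hζ
  have hp1 : A.valuation (p : Qb) < 1 := A.mem_nonunits_iff.mp hA
  rw [he, hk, ← zpow_natCast, ← zpow_mul] at h1
  have h2 : e = k * (Nat.totient (p ^ (e.toNat + 1)) : ℤ) := hanti.injective h1
  have he0 : 0 < e := by
    rw [he, ← zpow_zero γ] at hp1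
    exact (StrictAnti.lt_iff_gt hanti).mp hp1
  have h3 : e.toNat < Nat.totient (p ^ (e.toNat + 1)) := by
    rw [Nat.totient_prime_pow_succ hp]
    calc e.toNat < p ^ e.toNat := Nat.lt_pow_self hp.one_lt
      _ ≤ p ^ e.toNat * (p - 1) := Nat.le_mul_of_pos_right _ (by have := hp.two_le; omega)
  have hk0 : 0 < k := by
    by_contra hk0
    have : k * (Nat.totient (p ^ (e.toNat + 1)) : ℤ) ≤ 0 :=
      mul_nonpos_of_nonpos_of_nonneg (by omega) (by positivity)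
    omega
  have h4 : (Nat.totient (p ^ (e.toNat + 1)) : ℤ) ≤ k * (Nat.totient (p ^ (e.toNat + 1)) : ℤ) :=
    le_mul_of_one_le_left (by positivity) (by omega)
  omega

/-- transport of structure along `g ∈ GQ` -/
theorem moving_conj {V : Subgroup GQ} [V.Normal] {A : ValuationSubring Qb} (g : GQ) {M : ℕ}
    {σ : GQ} (hσ : σ ∈ A.decompositionSubgroup ℚ ⊓ V)
    (h : ∀ ζ : Qb, IsPrimitiveRoot ζ M → σ ζ ≠ ζ) :
    g * σ * g⁻¹ ∈ (g • A).decompositionSubgroup ℚ ⊓ V ∧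
      ∀ ζ : Qb, IsPrimitiveRoot ζ M → (g * σ * g⁻¹) ζ ≠ ζ := by
  refine ⟨⟨?_, Subgroup.Normal.conj_mem inferInstance σ hσ.2 g⟩, fun ζ hζ h1 => ?_⟩
  · show g * σ * g⁻¹ ∈ (g • A).decompositionSubgroup ℚ
    rw [mem_decomposition_smul_iff]
    have : g⁻¹ * (g * σ * g⁻¹) * g = σ := by group
    rw [this]
    exact hσ.1
  · refine h (g⁻¹ ζ) (hζ.map_of_injective (f := (g⁻¹ : GQ)) (g⁻¹ : GQ).injective) ?_
    have h2 : g (σ (g⁻¹ ζ)) = ζ := h1
    have h3 : g⁻¹ (g (σ (g⁻¹ ζ))) = σ (g⁻¹ ζ) := by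
      rw [← AlgEquiv.mul_apply, inv_mul_cancel, AlgEquiv.one_apply]
    rw [← h3, h2]

/-- **Claim 1.** -/
theorem exists_moving {p : ℕ} [Fact p.Prime] {q : ℕ} (hq : q.Prime) (F : IntermediateField ℚ Qb)
    [FiniteDimensional ℚ F] [Normal ℚ F] :
    ∃ m : ℕ, ∀ A : ValuationSubring Qb, A.LiesOverPrime q →
      ∃ σ ∈ A.decompositionSubgroup ℚ ⊓ F.fixingSubgroup,
        ∀ ζ : Qb, IsPrimitiveRoot ζ (p ^ m) → σ ζ ≠ ζ := by
  have hp : p.Prime := Fact.out
  have : F.fixingSubgroup.Normal := fixingSubgroup_normal F inferInstance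
  have : F.fixingSubgroup.FiniteIndex := fixingSubgroup_finiteIndex F inferInstance
  by_cases hqp : q = p
  · subst hqp
    obtain ⟨A₀, hA₀⟩ := exists_liesOverPrime hq
    obtain ⟨m, σ, hσ, h⟩ := exists_moving_self F A₀ hA₀
    refine ⟨m, fun A hA => ?_⟩
    obtain ⟨g, rfl⟩ := exists_smul_eq hq hA₀ hA
    exact ⟨_, moving_conj g hσ h⟩
  · exact exists_moving_of_ne hp hq hqp _

theorem moving_mono {p : ℕ} (hp : p.Prime) {m M : ℕ} (hmM : m ≤ M) {σ : GQ}
    (h : ∀ ζ : Qb, IsPrimitiveRoot ζ (p ^ m) → σ ζ ≠ ζ) {η : Qb}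
    (hη : IsPrimitiveRoot η (p ^ M)) : σ η ≠ η := by
  intro h1
  refine h (η ^ (p ^ (M - m))) (hη.pow (pow_pos hp.pos _) ?_) (by rw [map_pow, h1])
  rw [← pow_add]
  congr 1
  omega

/-- cyclotomic fields of `p`-power conductor are unramified outside `S ∋ p` -/
theorem isUnramifiedOutside_adjoin {p : ℕ} [Fact p.Prime] {S : Finset Nat.Primes}
    (hpS : pPrime p ∈ S) {M : ℕ} {η : Qb} (hη : η ^ (p ^ M) = 1) :
    (IntermediateField.adjoin ℚ {η}).IsUnramifiedOutside S := by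
  have hp : p.Prime := Fact.out
  refine ⟨IntermediateField.adjoin.finiteDimensional (Algebra.IsIntegral.isIntegral (R := ℚ) η),
    fun q hq A hA g hg => ?_⟩
  have hqp : (q : ℕ) ≠ p := by
    intro h
    apply hq
    have : q = pPrime p := Subtype.ext h
    rw [this]; exact hpS
  rw [IntermediateField.mem_fixingSubgroup_iff]
  intro z hz
  refine apply_eq_of_mem_adjoin_simple ?_ hz
  refine apply_eq_of_mem_inertia_of_pow q.2 hA
    (Nat.Coprime.pow_right M ((Nat.coprime_primes q.2 hp).mpr hqp)) hg hη (map_one g)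
    one_ne_zero (map_one g) ?_
  rw [map_one, valuation_eq_one_of_pow_eq_one (pow_ne_zero _ hp.ne_zero) hη]

theorem normal_adjoin {n : ℕ} (hn : n ≠ 0) {η : Qb} (hη : IsPrimitiveRoot η n) :
    Normal ℚ ↥(IntermediateField.adjoin ℚ {η}) := by
  have : NeZero n := ⟨hn⟩
  have h1 := hη.intermediateField_adjoin_isCyclotomicExtension ℚ
  have h2 := @IsCyclotomicExtension.isGalois {n} ℚ ↥(IntermediateField.adjoin ℚ {η}) _ _ _ h1
  exact h2.to_normal

end Nice

open Nice Fermat.Agent.Bridge in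
theorem exists_nice {p : ℕ} [Fact p.Prime] (hp2 : p ≠ 2) (S : Finset Nat.Primes)
    (hpS : pPrime p ∈ S) {U : Subgroup GQ} (hU : U ∈ (levS S).carrier) :
    ∃ W, W ≤ U ∧ NiceLevel p S W := by
  have hp : p.Prime := Fact.out
  obtain ⟨F, hF, hFn, rfl⟩ := hU
  have hFfin := hF.1
  -- `F' = F(ζ_p)`
  have : NeZero p := ⟨hp.ne_zero⟩
  obtain ⟨ζ, hζ⟩ := HasEnoughRootsOfUnity.exists_primitiveRoot Qb p
  have hζfin : FiniteDimensional ℚ ↥(IntermediateField.adjoin ℚ {ζ}) :=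
    IntermediateField.adjoin.finiteDimensional (Algebra.IsIntegral.isIntegral (R := ℚ) ζ)
  have hζn := normal_adjoin hp.ne_zero hζ
  have hF'fin : FiniteDimensional ℚ ↥(F ⊔ IntermediateField.adjoin ℚ {ζ}) :=
    IntermediateField.finiteDimensional_sup _ _
  have hF'n : Normal ℚ ↥(F ⊔ IntermediateField.adjoin ℚ {ζ}) :=
    @IntermediateField.normal_sup ℚ Qb _ _ _ F _ hFn hζn
  -- the bounds
  choose m hm using fun q : Nat.Primes =>
    exists_moving (p := p) q.2 (F ⊔ IntermediateField.adjoin ℚ {ζ})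
  set N : ℕ := 1 + S.sup m with hN
  have : NeZero (p ^ (N + 1)) := ⟨pow_ne_zero _ hp.ne_zero⟩
  obtain ⟨η, hη⟩ := HasEnoughRootsOfUnity.exists_primitiveRoot Qb (p ^ (N + 1))
  have hηp : IsPrimitiveRoot (η ^ p) (p ^ N) :=
    hη.pow (pow_pos hp.pos _) (by rw [pow_succ, mul_comm])
  have hηN : (η ^ (p ^ N)) ^ p = 1 := by rw [← pow_mul, ← pow_succ, hη.pow_eq_one]
  have hηpn := normal_adjoin (pow_ne_zero N hp.ne_zero) hηp
  have hW : ∀ s : GQ, s ∈ (F ⊔ IntermediateField.adjoin ℚ {η ^ p}).fixingSubgroup ↔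
      s ∈ F.fixingSubgroup ∧ s (η ^ p) = η ^ p := by
    intro s
    rw [IntermediateField.fixingSubgroup_sup]
    refine and_congr Iff.rfl ?_
    show s ∈ (IntermediateField.adjoin ℚ {η ^ p}).fixingSubgroup ↔ _
    rw [IntermediateField.mem_fixingSubgroup_iff]
    exact ⟨fun h => h _ (IntermediateField.mem_adjoin_simple_self ℚ _),
      fun h z hz => apply_eq_of_mem_adjoin_simple h hz⟩
  refine ⟨(F ⊔ IntermediateField.adjoin ℚ {η ^ p}).fixingSubgroup,
    IntermediateField.fixingSubgroup_antitone le_sup_left, ?_, ?_, ?_⟩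
  · exact ⟨_, hF.sup (isUnramifiedOutside_adjoin hpS hηp.pow_eq_one),
      @IntermediateField.normal_sup ℚ Qb _ _ _ F _ hFn hηpn, rfl⟩
  · intro s hs
    have h1 : s ζ = ζ ^ 1 := by
      rw [pow_one]
      refine apply_eq_of_primitive (pow_ne_zero N hp.ne_zero) hηp ?_ ((hW s).mp hs).2
      have : p ^ N = p * p ^ (N - 1) := by
        rw [← pow_succ']
        congr 1
        omega
      rw [this, pow_mul, hζ.pow_eq_one, one_pow]
    have h2 := Fermat.Agent.GAL.cycloChar_eq_of_primitiveRoot p s hζ h1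
    rw [cycloChar_eq_gal]
    exact Units.ext (by simpa using h2)
  · refine ⟨N, η, by omega, hη, fun s hs => ((hW s).mp hs).2, ?_, fun q hq A hA => ?_⟩
    · obtain ⟨U, hU, hle⟩ := exists_levS_le (isUnramifiedOutside_adjoin hpS hη.pow_eq_one)
      refine ⟨U, hU, fun s hs => ?_⟩
      have := hle hs
      rw [IntermediateField.mem_fixingSubgroup_iff] at this
      exact this _ (IntermediateField.mem_adjoin_simple_self ℚ _)
    · obtain ⟨σ, hσ, hmove⟩ := hm q A hA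
      have hσV : σ ∈ (F ⊔ IntermediateField.adjoin ℚ {ζ}).fixingSubgroup := hσ.2
      rw [IntermediateField.fixingSubgroup_sup] at hσV
      have hσF : σ ∈ F.fixingSubgroup := hσV.1
      have hσζ : σ ζ = ζ := by
        have h1 : σ ∈ (IntermediateField.adjoin ℚ {ζ}).fixingSubgroup := hσV.2
        rw [IntermediateField.mem_fixingSubgroup_iff] at h1
        exact h1 _ (IntermediateField.mem_adjoin_simple_self ℚ _)
      have hle : m q ≤ N + 1 := by
        have : m q ≤ S.sup m := Finset.le_sup hq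
        omega
      obtain ⟨j, hj1, hj2⟩ := exists_pow_moving hp2 hη
        (apply_eq_of_primitive hp.ne_zero hζ hηN hσζ) (moving_mono hp hle hmove hη)
      exact ⟨σ ^ j, ⟨Subgroup.pow_mem _ hσ.1 j,
        (hW _).mpr ⟨Subgroup.pow_mem _ hσF j, hj1⟩⟩, hj2⟩

end Fermat.Agent.CFT
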