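import Fermat.Agent.CFT.T.Defs
import Fermat.Agent.CFT.Global.TG6.Main
import Fermat.Agent.CFT.Global.GC3.Main

/-!
# CFT / T, WP TG6 = (N-a)+(N-c) : `2 s + [L:ℚ] + 2 sha^2(G_S(L),F_p) ≤ 2 h^1(G_S(L),F_p) < ∞`.

Let `T ⊇ S_L` be a finite set of places of `L` with `GenCl T` (S14/Approx), `E_T` the `T`-units,
`dim E_T/p = #T + n/2` (S14 `finrank_SUn`, `L` totally complex, `μ_p ⊂ L`).
`o : E_T/p → F_p^(T∖S_L)`, `u ↦ (ord_w u mod p)`, `c := #(T∖S_L) - rank o`.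
(N-a) `h^1 ≥ dim ker o = s + n/2 + c`: for `u ∈ ker o` the Kummer character `g ↦ g(u^(1/p))/u^(1/p)` is
  `S`-level-constant (GK1: Kummer unramified criterion, helper34 PlaceBridgeKummer) and is `0` iff `u ∈ L^×p`.
  Finiteness: every `S`-level character is a Kummer character of some `a ∈ L^×` (Br/Kummer `kummer_Z1` on
  `W` acting on `Qb`), `p ∣ ord_w a` for `w ∉ S_L` (converse of GK1), `a ∈ (ker o)·L^×p` by `GenCl`.
(N-c) `sha^2 ≤ c`: given `x_0..x_c ∈ ShaZ2`. GC3 (Hasse principle, helper57): `ζ^(x_j) = d φ_j`,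
  `φ_j : W → Q_S^×` `S`-level-constant.  `φ_j^p` is a 1-cocycle, `= d β_j`, `β_j ∈ Q_S^×` (Hilbert 90 for
  `S`-levels, Coh/H90 `hilbert90_of_exp`).  `ord_A β_j mod p` (`A ∤ S`; `Q_S` is unramified at `A`) is
  `W`-invariant, so it defines `m_j : {w ∉ S_L} → F_p` of finite support. `GenCl.exists_ord_eq`: `b_j ∈ L^×`
  with `ord_w b_j ≡ m_j(w)` for `w ∉ T`.  The `c+1` vectors `(m_j(w) - ord_w b_j)_{w ∈ T∖S_L}` are dependent
  modulo the image of `o`: `∑ a_j (..) = o(u)`.  Then `β := ∏ β_j^(a_j) / (u ∏ b_j^(a_j))` has `p ∣ ord_A β`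
  for all `A ∤ S`, so `γ := β^(1/p) ∈ Q_S` (GK1), and `φ := ∏ φ_j^(a_j) / dγ` is `μ_p`-valued, `S`-level-constant,
  `dφ = ζ^(∑ a_j x_j)`: `∑ a_j x_j ∈ B2`.
-/

set_option autoImplicit false

open ExtCitation Module

namespace Fermat.Agent.CFT

theorem num_of_nice {p : ℕ} [Fact p.Prime] (hp2 : p ≠ 2) (S : Finset Nat.Primes)
    (hpS : pPrime p ∈ S) {W : Subgroup GQ} (hW : NiceLevel p S W) {ι : Type} [Fintype ι]
    [DecidableEq ι] (A : ι → ValuationSubring Qb) (hA : IsPlaceSystem S W A) :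
    Module.Finite (ZMod p) (H1 ((levS S).sub W) (1 : Representation (ZMod p) ↥W (ZMod p))) ∧
    Module.Finite (ZMod p) ((DF S W A).Sha2 (1 : Representation (ZMod p) (DF S W A).G (ZMod p))) ∧
    2 * Fintype.card ι + W.index
        + 2 * finrank (ZMod p) ((DF S W A).Sha2 (1 : Representation (ZMod p) (DF S W A).G (ZMod p)))
      ≤ 2 * finrank (ZMod p) (H1 ((levS S).sub W) (1 : Representation (ZMod p) ↥W (ZMod p))) :=
  Global.num_of_hasse hp2 S (Global.hasseS hp2 ⟨pPrime p, hpS, rfl⟩) hpS hW A hA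

end Fermat.Agent.CFT
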