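import Fermat.Agent.CFT.F.Spec
import Fermat.Agent.CFT.F.MapRep
import Fermat.Agent.CFT.Recip.Formal

/-!
# CFT / T, WP TG7 : the reciprocity functional from three simple statements (formal linear algebra).

`X = ∏_v (G_v × G_v → k)`, `R = RL2 (chiRep χ) = ∏ B2_v + res2 (Z2)`.  `e₀ := Pi.single v₀ c₀ ∉ R`:
otherwise `Pi.single v₀ c₀ = b + res2 a`, so `res2 a v ∈ B2_v` for `v ≠ v₀`, so `res2 a v₀ ∈ B2` (`h1`),
so `c₀ ∈ B2`, so `Z2_{v₀} ≤ B2_{v₀}` (`h3`), contradicting `h2` (`mapRepSum ∘ c ∈ Z2`: `comp_mem_Z2`).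
Choose `Λ : X →ₗ k` with `Λ R = 0`, `Λ e₀ = 1` (`Submodule.exists_le_ker_of_notMem` or a dual-annihilator
argument), `lam v := Λ ∘ₗ LinearMap.single k _ v`.  `∑_v lam v (x v) = Λ x`.
For `W`: `mapRepSum ∘ c = t • c₀ + b`, `t ≠ 0`.
-/

set_option autoImplicit false

namespace Fermat.Agent.CFT

theorem Datum.recip_of (D : Datum) {k : Type} [Field k] (χ : D.G →* kˣ) (v₀ : D.ι)
    (h1 : ∀ a ∈ Z2 D.lev (chiRep χ),
      (∀ v, v ≠ v₀ → D.res2 (k := k) a v ∈ B2 (D.levv v) (D.loc (chiRep χ) v)) →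
        D.res2 (k := k) a v₀ ∈ B2 (D.levv v₀) (D.loc (chiRep χ) v₀))
    (h2 : ∀ W ∈ (D.levv v₀).carrier, ∀ _ : Fintype (D.Gv v₀ ⧸ W),
      ∃ c ∈ Z2 (D.levv v₀) (mapRep W (D.loc (chiRep χ) v₀)),
        (fun g => mapRepSum (k := k) W (c g)) ∉ B2 (D.levv v₀) (D.loc (chiRep χ) v₀))
    (h3 : ∃ c₀ ∈ Z2 (D.levv v₀) (D.loc (chiRep χ) v₀),
      ∀ c ∈ Z2 (D.levv v₀) (D.loc (chiRep χ) v₀), ∃ t : k,
        c - t • c₀ ∈ B2 (D.levv v₀) (D.loc (chiRep χ) v₀)) :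
    ∃ lam : ∀ v : D.ι, (D.Gv v × D.Gv v → k) →ₗ[k] k,
    (∀ v, ∀ b ∈ B2 (D.levv v) (D.loc (chiRep χ) v), lam v b = 0) ∧
    (∀ a ∈ Z2 D.lev (chiRep χ), ∑ v, lam v (D.res2 (k := k) a v) = 0) ∧
    ∃ v₀ : D.ι, ∀ W ∈ (D.levv v₀).carrier, ∀ _ : Fintype (D.Gv v₀ ⧸ W),
      ∃ c ∈ Z2 (D.levv v₀) (mapRep W (D.loc (chiRep χ) v₀)),
        lam v₀ (fun g => mapRepSum (k := k) W (c g)) ≠ 0 := by
  classical
  obtain ⟨c₀, hc₀, hgen⟩ := h3
  -- `mapRepSum ∘ c` is a cocycle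
  have hsum : ∀ W ∈ (D.levv v₀).carrier, ∀ _ : Fintype (D.Gv v₀ ⧸ W),
      ∀ c ∈ Z2 (D.levv v₀) (mapRep W (D.loc (chiRep χ) v₀)),
        (fun g => mapRepSum (k := k) W (c g)) ∈ Z2 (D.levv v₀) (D.loc (chiRep χ) v₀) := by
    intro W hW _ c hc
    refine comp_mem_Z2 (mapRepSum (k := k) W) (fun g F => ?_) hc
    simp only [mapRepSum, LinearMap.coe_mk, AddHom.coe_mk, mapRep_apply, map_sum]
    exact (Equiv.sum_comp (MulAction.toPerm g⁻¹ : Equiv.Perm (D.Gv v₀ ⧸ W))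
      (fun x => (D.loc (chiRep χ) v₀) g (F x)))
  -- `c₀` is not a coboundary
  have hc₀B : c₀ ∉ B2 (D.levv v₀) (D.loc (chiRep χ) v₀) := by
    intro hB
    obtain ⟨W, hW⟩ := (D.levv v₀).nonempty
    have : W.FiniteIndex := (D.levv v₀).finiteIndex W hW
    let _ : Fintype (D.Gv v₀ ⧸ W) := Fintype.ofFinite _
    obtain ⟨c, hc, hcB⟩ := h2 W hW inferInstance
    obtain ⟨t, ht⟩ := hgen _ (hsum W hW _ c hc)
    apply hcB
    have := Submodule.add_mem _ ht (Submodule.smul_mem _ t hB)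
    simpa using this
  refine Recip.recip_of D χ v₀ c₀ (fun W hW inst => ?_) (fun a ha hloc hB => ?_)
  · obtain ⟨c, hc, hcB⟩ := h2 W hW inst
    obtain ⟨t, ht⟩ := hgen _ (hsum W hW inst c hc)
    have ht0 : t ≠ 0 := by
      rintro rfl
      apply hcB
      simpa using ht
    refine ⟨t⁻¹ • c, Submodule.smul_mem _ _ hc, ?_⟩
    have h4 := Submodule.smul_mem _ t⁻¹ ht
    have h5 : t⁻¹ • ((fun g => mapRepSum (k := k) W (c g)) - t • c₀) =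
        (fun g => mapRepSum (k := k) W ((t⁻¹ • c) g)) - c₀ := by
      funext g
      simp only [Pi.smul_apply, Pi.sub_apply, smul_eq_mul, map_smul]
      field_simp
    rw [h5] at h4
    exact h4
  · apply hc₀B
    have h6 := h1 a ha hloc
    have := Submodule.sub_mem _ h6 hB
    simpa using this

end Fermat.Agent.CFT
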