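import Fermat.Agent.CFT.T.Defs
import Fermat.Agent.CFT.Recip.Main

/-!
# CFT / T, WP TG8 = (I2), reciprocity over `ℚ` (GLOBAL, = helper85's GC5, see board #570 (B)).

A class of `H^2(G_S,μ_p)` which is locally trivial at all `q ∈ S`, `q ≠ p`, is locally trivial at `p`.
-/

set_option autoImplicit false

open ExtCitation

namespace Fermat.Agent.CFT

theorem recipQ {p : ℕ} [Fact p.Prime] (hp2 : p ≠ 2) (S : Finset Nat.Primes)
    (hpS : pPrime p ∈ S) (a : GQ × GQ → ZMod p) (ha : a ∈ Z2 (levS S) (chiRep (cycloChar p)))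
    (hloc : ∀ q ∈ S, q ≠ pPrime p →
      a ∘ Prod.map (decomp q).subtype (decomp q).subtype ∈
        B2 (levAll.comap (decomp q).subtype) ((chiRep (cycloChar p)).comp (decomp q).subtype)) :
    a ∘ Prod.map (decomp (pPrime p)).subtype (decomp (pPrime p)).subtype ∈
      B2 (levAll.comap (decomp (pPrime p)).subtype)
        ((chiRep (cycloChar p)).comp (decomp (pPrime p)).subtype) :=
  Recip.recipQ_main hp2 S hpS a ha hloc

end Fermat.Agent.CFT
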