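import Fermat.Agent.CFT.F.Shapiro.Good

/-!
# CFT / T : the output of the Shapiro-Mackey layer (helper1, F/Shapiro/*).
-/

set_option autoImplicit false

namespace Fermat.Agent.CFT

theorem Datum.goodLevel_of_restr (D : Datum) {k : Type} [Field k] {W : Subgroup D.G}
    (hW : W ∈ D.lev.carrier) (R : D.RestrData W) (h : (D.restr hW R).GoodTriv k) :
    D.GoodLevel k W :=
  Datum.GoodTriv.goodLevel hW R h

end Fermat.Agent.CFT
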