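import Fermat.Agent.CFT.T.Restr
import Fermat.Agent.CFT.T.Iso
import Fermat.Agent.CFT.T.IsoDF
import Fermat.Agent.CFT.T.Nice
import Fermat.Agent.CFT.T.Codim
import Fermat.Agent.CFT.T.LocH1
import Fermat.Agent.CFT.T.Num
import Fermat.Agent.CFT.T.Recip
import Fermat.Agent.CFT.T.RecipQ
import Fermat.Agent.CFT.T.LocalP
import Fermat.Agent.CFT.T.Shap
import Fermat.Agent.CFT.F.Final
import Fermat.Agent.CFT.K.Bridge

/-!
# CFT / T : assembly.  `(DS S).PTHyp (cycloChar p)` from the targets TG1-TG9.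
-/

set_option autoImplicit false

open ExtCitation Module

namespace Fermat.Agent.CFT

variable {p : ℕ} [Fact p.Prime]

theorem goodTriv_of_nice (hp2 : p ≠ 2) (S : Finset Nat.Primes)
    (hpS : pPrime p ∈ S) {W : Subgroup GQ} (hW : NiceLevel p S W) {ι : Type} [Fintype ι]
    [DecidableEq ι] (A : ι → ValuationSubring Qb) (hA : IsPlaceSystem S W A) :
    (DF S W A).GoodTriv (ZMod p) := by
  have h1 := locH1_of_nice hp2 S hpS hW A hA
  have h2 := num_of_nice hp2 S hpS hW A hA
  exact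
    { codim := codim_of_nice hp2 S hpS hW A hA
      finH1 := h2.1
      finLoc1 := h1.1
      finSha2 := h2.2.1
      ineq' := by
        have e1 := h1.2
        have e2 := h2.2.2
        exact le_trans (Nat.add_le_add_right e1 _) e2 }

theorem goodLevel_of_nice (hp2 : p ≠ 2) (S : Finset Nat.Primes)
    (hpS : pPrime p ∈ S) {W : Subgroup GQ} (hW : NiceLevel p S W) :
    (DS S).GoodLevel (ZMod p) W := by
  obtain ⟨R⟩ := (DS S).exists_restrData hW.mem
  obtain ⟨e⟩ := nonempty_iso_restr_DF S hW.mem R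
  exact (DS S).goodLevel_of_restr hW.mem R
    (Datum.GoodTriv.of_iso e
      (goodTriv_of_nice hp2 S hpS hW _ (isPlaceSystem_restrPlace S hW.mem R)))

theorem ptHyp (hp2 : p ≠ 2) (S : Finset Nat.Primes) (hpS : pPrime p ∈ S) :
    (DS S).PTHyp (cycloChar p) where
  chi_smooth := cycloChar_smooth S hpS
  good := fun U hU => by
    obtain ⟨W, hWU, hW⟩ := exists_nice hp2 S hpS hU
    exact ⟨W, hW.mem, hWU, goodLevel_of_nice hp2 S hpS hW⟩
  recip := Datum.recip_of (DS S) (cycloChar p) ⟨pPrime p, hpS⟩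
    (fun a ha h => recipQ hp2 S hpS a ha
      (fun q hq hne => h ⟨q, hq⟩ (fun h' => hne (congrArg Subtype.val h'))))
    (fun W hW _ => cores_ne_zero hp2 W hW)
    (h2_le_one hp2)

theorem abstractPT_DS (hp2 : p ≠ 2) (S : Finset Nat.Primes) (hpS : pPrime p ∈ S) :
    (DS S).AbstractPT (cycloChar p) :=
  (ptHyp hp2 S hpS).abstractPT

end Fermat.Agent.CFT
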