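import Fermat.Agent.CFT.T.Defs
import Fermat.Agent.Common.PlaceBridge
import Fermat.Agent.CFT.Global.Num.Places

/-!
# CFT / T, WP TG1 : double coset representatives exist, and give a place system.

`exists_restrData` : pure group theory (`O v` := orbits of `G_v` on `G ⧸ W`, finite as `W` has finite
index; `g v o` := a lift of a point of the orbit).
`isPlaceSystem_restrPlace` : `GQ` is transitive on the places over `q`
(`Fermat.Agent.Bridge.exists_smul_eq`), `decomp q` is the stabiliser of `primeLocalPlace q`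
(which lies over `q`), `W` is normal.
 surj: `A' = τ • A_q`; `τ⁻¹ W = h g_o W` so `τ = w⁻¹ g_o⁻¹ h⁻¹`, `A' = w⁻¹ • (g_o⁻¹ • A_q)`.
 inj : `w • g_o⁻¹ A_q = g_o'⁻¹ A_q'` ⇒ `q = q'`, `h := g_o' w g_o⁻¹ ∈ D_q`, `g_o' W = h g_o W` ⇒ `o = o'`.
-/

set_option autoImplicit false

open ExtCitation
open scoped Pointwise

namespace Fermat.Agent.CFT

theorem Datum.exists_restrData (D : Datum) {W : Subgroup D.G} (hW : W ∈ D.lev.carrier) :
    Nonempty (D.RestrData W) := by
  have := D.lev.finiteIndex W hW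
  exact Global.nonempty_restrData D W

/-- a place lies over at most one prime -/
theorem eq_of_liesOverPrime {A : ValuationSubring Qb} {q q' : ℕ} (hq : q.Prime) (hq' : q'.Prime)
    (h : A.LiesOverPrime q) (h' : A.LiesOverPrime q') : q = q' := by
  by_contra hne
  have hco : Nat.Coprime q q' := (Nat.coprime_primes hq hq').2 hne
  have h1 : A.valuation (q : Qb) < 1 := A.mem_nonunits_iff.mp h
  have h2 : A.valuation (q' : Qb) < 1 := A.mem_nonunits_iff.mp h'
  have hb : ((q : ℤ) * Nat.gcdA q q' + (q' : ℤ) * Nat.gcdB q q' : ℤ) = 1 := by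
    have := Nat.gcd_eq_gcd_ab q q'
    rw [hco] at this
    exact_mod_cast this.symm
  have hint : ∀ n : ℤ, A.valuation (n : Qb) ≤ 1 := fun n =>
    (A.valuation_le_one_iff _).2 (intCast_mem A n)
  have h3 : A.valuation (((q : ℤ) * Nat.gcdA q q' + (q' : ℤ) * Nat.gcdB q q' : ℤ) : Qb) < 1 := by
    push_cast
    refine lt_of_le_of_lt (A.valuation.map_add _ _) (max_lt ?_ ?_)
    · rw [map_mul]
      exact mul_lt_one_of_lt_of_le h1 (hint _)
    · rw [map_mul]
      exact mul_lt_one_of_lt_of_le h2 (hint _)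
  rw [hb] at h3
  simp at h3

theorem isPlaceSystem_restrPlace (S : Finset Nat.Primes) {W : Subgroup GQ}
    (hW : W ∈ (levS S).carrier) (R : (DS S).RestrData W) :
    IsPlaceSystem S W (restrPlace S R) := by
  refine ⟨fun i => ⟨i.1.1, i.1.2, Bridge.liesOverPrime_smul
    (Global.liesOverPrime_primeLocalPlace i.1.1) _⟩, ?_, ?_⟩
  · rintro ⟨q, o⟩ ⟨q', o'⟩ w hw h
    have hq : q = q' := by
      have h1 : (restrPlace S R ⟨q', o'⟩).LiesOverPrime (q.1 : ℕ) := by
        rw [← h]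
        exact Bridge.liesOverPrime_smul (Bridge.liesOverPrime_smul
          (Global.liesOverPrime_primeLocalPlace q.1) _) _
      have h2 : (restrPlace S R ⟨q', o'⟩).LiesOverPrime (q'.1 : ℕ) :=
        Bridge.liesOverPrime_smul (Global.liesOverPrime_primeLocalPlace q'.1) _
      exact Subtype.ext (Subtype.ext (eq_of_liesOverPrime q.1.2 q'.1.2 h1 h2))
    subst hq
    have h' : w • ((R.g q o : GQ)⁻¹ • primeLocalPlace q.1) =
        (R.g q o' : GQ)⁻¹ • primeLocalPlace q.1 := h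
    have h2 : (R.g q o' : GQ) * w * (R.g q o : GQ)⁻¹ ∈ decomp q.1 := by
      change ((R.g q o' : GQ) * w * (R.g q o : GQ)⁻¹) • primeLocalPlace q.1 = primeLocalPlace q.1
      rw [mul_smul, mul_smul, h', smul_inv_smul]
    obtain ⟨o₀, -, huniq⟩ := R.bij q ((R.g q o' : GQ) : GQ ⧸ W)
    have e1 : o' = o₀ := huniq o' ⟨1, by simp⟩
    have e2 : o = o₀ := huniq o ⟨⟨_, h2⟩, by
      change _ = ((((R.g q o' : GQ) * w * (R.g q o : GQ)⁻¹) * R.g q o : GQ) : GQ ⧸ W)
      rw [inv_mul_cancel_right, eq_comm, QuotientGroup.mk_mul_of_mem _ hw]⟩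
    rw [e1, e2]
  · intro q hq A' hA'
    obtain ⟨σ, hσ⟩ := Bridge.exists_smul_eq q.2 (Global.liesOverPrime_primeLocalPlace q) hA'
    obtain ⟨o, ⟨h, hh⟩, -⟩ := R.bij ⟨q, hq⟩ ((σ⁻¹ : GQ) : GQ ⧸ W)
    have h3 : ((h : GQ) * R.g ⟨q, hq⟩ o)⁻¹ * σ⁻¹ ∈ W := QuotientGroup.eq.1 hh.symm
    refine ⟨⟨⟨q, hq⟩, o⟩, _, W.inv_mem h3, ?_⟩
    have h5 : (h : GQ) • primeLocalPlace q = primeLocalPlace q := h.2
    change (((h : GQ) * R.g ⟨q, hq⟩ o)⁻¹ * σ⁻¹)⁻¹ • ((R.g ⟨q, hq⟩ o : GQ)⁻¹ • primeLocalPlace q) = A'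
    rw [mul_inv_rev, inv_inv, inv_inv, mul_smul, mul_smul, smul_inv_smul, h5, hσ]

end Fermat.Agent.CFT
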